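import Fermat.Agent.DefRing.Normal

/-!
Normalised lifts of a given deformation type: generation of the coefficient ring by finitely many
entries, and uniqueness of lifts with prescribed entries.
-/

set_option autoImplicit false

noncomputable section

namespace FermatAgent.DefRing

open IsLocalRing Matrix

variable {𝒪 : Type} [CommRing 𝒪] [IsLocalRing 𝒪] (F : Frame 𝒪)
variable (𝒟 : ∀ ⦃A : Type⦄ [CommRing A] [IsLocalRing A] [Algebra 𝒪 A], GaloisRepAdic A → Prop)

/-- A normalised lift of the given type. -/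
structure IsLift {A : Type} [CommRing A] [IsLocalRing A] [Algebra 𝒪 A] (r : Γ →* M2 A) : Prop where
  norm : IsNorm F r
  mem : 𝒟 (toAdic r norm.cont)

variable {F 𝒟} (h𝒟 : GaloisRep.IsDeformationCondition 𝒪 𝒟)

section Functorial

variable {A B : Type} [CommRing A] [IsLocalRing A] [Algebra 𝒪 A]
  [CommRing B] [IsLocalRing B] [Algebra 𝒪 B]

include h𝒟 in
lemma IsLift.map (hA : GaloisRep.IsArtinianTestAlgebra 𝒪 A)
    (hB : GaloisRep.IsArtinianTestAlgebra 𝒪 B) (f : A →ₐ[𝒪] B) {r : Γ →* M2 A}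
    (h : IsLift F 𝒟 r) : IsLift F 𝒟 (mapRep (f : A →+* B) r) := by
  have hf := isLocalHom_of_isArtinianRing (f : A →+* B) hA.isArtinian
  refine ⟨h.norm.map F f hf, h𝒟.of_isEquiv hB ?_ (h𝒟.baseChangeAlong hA hB f hf h.mem)⟩
  exact isEquiv_baseChangeAlong_toAdic _ hf r _ _ _ rfl

/-- Normalisation is detected by jointly injective pairs of maps of Artinian rings. -/
lemma isNorm_of_jointly_injective {C : Type} [CommRing C] [IsLocalRing C] [Algebra 𝒪 C]
    (pA : C →ₐ[𝒪] A) (pB : C →ₐ[𝒪] B) (hA : IsArtinianRing A) (hB : IsArtinianRing B)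
    (hinj : ∀ x y, pA x = pA y → pB x = pB y → x = y) {r : Γ →* M2 C}
    (ha : IsNorm F (mapRep (pA : C →+* A) r)) (hb : IsNorm F (mapRep (pB : C →+* B) r)) :
    IsNorm F r := by
  refine ⟨fun n => ?_, fun σ i j => ?_, ?_, ?_, ?_⟩
  · obtain ⟨N, hN⟩ := (isArtinianRing_iff_isNilpotent_maximalIdeal A).mp hA
    obtain ⟨M, hM⟩ := (isArtinianRing_iff_isNilpotent_maximalIdeal B).mp hB
    obtain ⟨L, hL, hL'⟩ := ha.cont N
    obtain ⟨K, hK, hK'⟩ := hb.cont M
    refine ⟨L ⊔ K, IntermediateField.finiteDimensional_sup L K, fun σ hσ i j => ?_⟩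
    have e : (r σ - 1) i j = 0 := by
      apply hinj
      · have := hL' σ (fun x hx => hσ x (le_sup_left (α := IntermediateField ℚ _) hx)) i j
        rw [hN] at this
        rw [map_zero]
        simpa [Matrix.one_apply, apply_ite pA] using this
      · have := hK' σ (fun x hx => hσ x (le_sup_right (α := IntermediateField ℚ _) hx)) i j
        rw [hM] at this
        rw [map_zero]
        simpa [Matrix.one_apply, apply_ite pB] using this
    rw [e]; exact zero_mem _
  · have := ha.res σ i j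
    rw [mapRep_apply, Matrix.map_apply, RingHom.coe_coe, ← pA.commutes, ← map_sub] at this
    exact fun hu => this (hu.map pA)
  · exact hinj _ _ (by rw [map_zero, ← ha.upper, comb_map, Matrix.map_apply])
      (by rw [map_zero, ← hb.upper, comb_map, Matrix.map_apply])
  · exact hinj _ _ (by rw [map_zero, ← ha.lower, comb_map, Matrix.map_apply])
      (by rw [map_zero, ← hb.lower, comb_map, Matrix.map_apply])
  · exact hinj _ _ (by rw [map_one, ← ha.one, comb_map, Matrix.map_apply])
      (by rw [map_one, ← hb.one, comb_map, Matrix.map_apply])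

include h𝒟 in
lemma IsLift.of_injective (hA : GaloisRep.IsArtinianTestAlgebra 𝒪 A)
    (hB : GaloisRep.IsArtinianTestAlgebra 𝒪 B) (f : A →ₐ[𝒪] B) (hinj : Function.Injective f)
    {r : Γ →* M2 A} (h : IsLift F 𝒟 (mapRep (f : A →+* B) r)) : IsLift F 𝒟 r := by
  have hf := isLocalHom_of_isArtinianRing (f : A →+* B) hA.isArtinian
  have hn : IsNorm F r :=
    isNorm_of_jointly_injective f f hB.isArtinian hB.isArtinian (fun x y e _ => hinj e) h.norm h.norm
  refine ⟨hn, h𝒟.of_baseChangeAlong_injective hA hB f hf hinj (h𝒟.of_isEquiv hB ?_ h.mem)⟩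
  obtain ⟨e⟩ := isEquiv_baseChangeAlong_toAdic _ hf r hn.cont _ h.norm.cont rfl
  exact ⟨e.symm⟩

include h𝒟 in
lemma IsLift.of_fibreProduct {C P : Type} [CommRing C] [IsLocalRing C] [Algebra 𝒪 C]
    [CommRing P] [IsLocalRing P] [Algebra 𝒪 P]
    (hA : GaloisRep.IsArtinianTestAlgebra 𝒪 A) (hB : GaloisRep.IsArtinianTestAlgebra 𝒪 B)
    (hC : GaloisRep.IsArtinianTestAlgebra 𝒪 C) (hP : GaloisRep.IsArtinianTestAlgebra 𝒪 P)
    (f : A →ₐ[𝒪] C) (g : B →ₐ[𝒪] C) (pA : P →ₐ[𝒪] A) (pB : P →ₐ[𝒪] B)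
    (hcomm : f.comp pA = g.comp pB) (hinj : Function.Injective fun x => (pA x, pB x))
    (hsurj : ∀ a b, f a = g b → ∃ x, pA x = a ∧ pB x = b)
    {r : Γ →* M2 P} (ha : IsLift F 𝒟 (mapRep (pA : P →+* A) r))
    (hb : IsLift F 𝒟 (mapRep (pB : P →+* B) r)) : IsLift F 𝒟 r := by
  have hpA := isLocalHom_of_isArtinianRing (pA : P →+* A) hP.isArtinian
  have hpB := isLocalHom_of_isArtinianRing (pB : P →+* B) hP.isArtinian
  have hn : IsNorm F r := isNorm_of_jointly_injective pA pB hA.isArtinian hB.isArtinian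
    (fun x y e e' => hinj (Prod.ext e e')) ha.norm hb.norm
  refine ⟨hn, h𝒟.of_fibreProduct hA hB hC hP f g pA pB hpA hpB hcomm hinj hsurj
    (h𝒟.of_isEquiv hA ?_ ha.mem) (h𝒟.of_isEquiv hB ?_ hb.mem)⟩
  · obtain ⟨e⟩ := isEquiv_baseChangeAlong_toAdic _ hpA r hn.cont _ ha.norm.cont rfl
    exact ⟨e.symm⟩
  · obtain ⟨e⟩ := isEquiv_baseChangeAlong_toAdic _ hpB r hn.cont _ hb.norm.cont rfl
    exact ⟨e.symm⟩

end Functorial

/-! ### Dual numbers and the reduction to the residue field -/

/-- The ring of dual numbers over the residue field. -/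
abbrev DN (𝒪 : Type) [CommRing 𝒪] [IsLocalRing 𝒪] : Type := DualNumber (ResidueField 𝒪)

lemma isTestAlgebra_DN [Finite (ResidueField 𝒪)] : GaloisRep.IsArtinianTestAlgebra 𝒪 (DN 𝒪) := by
  have : Finite (DN 𝒪) := Finite.of_equiv (ResidueField 𝒪 × ResidueField 𝒪) (Equiv.refl _)
  refine ⟨⟨fun o ho => ?_⟩, fun y => ?_, inferInstance⟩
  · exact IsUnit.of_map (residue 𝒪) o (TrivSqZeroExt.isUnit_iff_isUnit_fst.1 ho)
  · obtain ⟨x, rfl⟩ := residue_surjective y
    obtain ⟨o, ho⟩ := residue_surjective (R := 𝒪) (TrivSqZeroExt.fst x)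
    refine ⟨o, ?_⟩
    show residue _ (algebraMap 𝒪 (DN 𝒪) o) = residue _ x
    rw [eq_comm, ← sub_eq_zero, ← map_sub, residue_eq_zero_iff]
    show ¬ IsUnit _
    rw [TrivSqZeroExt.isUnit_iff_isUnit_fst, TrivSqZeroExt.fst_sub, ← ho]
    show ¬ IsUnit (residue 𝒪 o - residue 𝒪 o)
    rw [sub_self]
    exact not_isUnit_zero

section Residue

variable {A : Type} [CommRing A] [IsLocalRing A] [Algebra 𝒪 A]
  (hA : GaloisRep.IsArtinianTestAlgebra 𝒪 A)

include hA in
lemma exists_toResidueField : ∃ res : A →ₐ[𝒪] ResidueField 𝒪,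
    ∀ a o, a - algebraMap 𝒪 A o ∈ maximalIdeal A → res a = residue 𝒪 o := by
  have := hA.isLocalHom
  have hb : Function.Bijective (ResidueField.map (algebraMap 𝒪 A)) :=
    ⟨RingHom.injective _, fun y => by
      obtain ⟨o, rfl⟩ := hA.residue_surjective y; exact ⟨residue 𝒪 o, rfl⟩⟩
  let e := RingEquiv.ofBijective _ hb
  have key : ∀ o, e.symm (residue A (algebraMap 𝒪 A o)) = residue 𝒪 o := fun o =>
    e.injective (by rw [RingEquiv.apply_symm_apply]; rfl)
  refine ⟨{ e.symm.toRingHom.comp (residue A) with commutes' := key }, fun a o h => ?_⟩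
  show e.symm (residue A a) = _
  rw [← key o]
  congr 1
  rw [← sub_eq_zero, ← map_sub, residue_eq_zero_iff]
  exact h

end Residue

/-- The entries of a representation at the indices `e`. -/
def entries {A : Type} [CommRing A] {ι : Type} (e : ι → Γ × Fin 2 × Fin 2) (r : Γ →* M2 A) :
    ι → A := fun x => r (e x).1 (e x).2.1 (e x).2.2

/-- All entries of a representation. -/
def allEntries {A : Type} [CommRing A] (r : Γ →* M2 A) : Γ × Fin 2 × Fin 2 → A :=
  entries (fun x => x) r

lemma entries_mapRep {A B : Type} [CommRing A] [CommRing B] {ι : Type}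
    (e : ι → Γ × Fin 2 × Fin 2) (f : A →+* B) (r : Γ →* M2 A) :
    entries e (mapRep f r) = fun x => f (entries e r x) := rfl

variable (F 𝒟) in
/-- The indices `e` separate lifts to the dual numbers. -/
def Separates {ι : Type} (e : ι → Γ × Fin 2 × Fin 2) : Prop :=
  ∀ r r' : Γ →* M2 (DN 𝒪), IsLift F 𝒟 r → IsLift F 𝒟 r' → entries e r = entries e r' → r = r'

section Generation

variable [Finite (ResidueField 𝒪)] {ι : Type} {e : ι → Γ × Fin 2 × Fin 2}

include h𝒟 in
lemma generation_sq_zero (hsep : Separates F 𝒟 e) {A : Type} [CommRing A] [IsLocalRing A]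
    [Algebra 𝒪 A] (hA : GaloisRep.IsArtinianTestAlgebra 𝒪 A) (h2 : maximalIdeal A ^ 2 = ⊥)
    {r : Γ →* M2 A} (h : IsLift F 𝒟 r)
    (hall : Algebra.adjoin 𝒪 (Set.range (allEntries r)) = ⊤) :
    Algebra.adjoin 𝒪 (Set.range (entries e r)) = ⊤ := by
  have := finite_of_isArtinianTestAlgebra hA
  set T := Algebra.adjoin 𝒪 (Set.range (entries e r)) with hT
  by_contra hne
  have hTne : Subalgebra.toSubmodule T ≠ ⊤ := fun hh =>
    hne (Algebra.toSubmodule_eq_top.1 hh)
  obtain ⟨W, hW, hTW⟩ := (eq_top_or_exists_le_coatom (Subalgebra.toSubmodule T)).resolve_left hTne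
  have hsimple : IsSimpleModule 𝒪 (A ⧸ W) := isSimpleModule_iff_isCoatom.2 hW
  obtain ⟨I, hI, ⟨eW⟩⟩ := isSimpleModule_iff_quot_maximal.1 hsimple
  obtain rfl := IsLocalRing.eq_maximalIdeal hI
  let Lq : A →ₗ[𝒪] ResidueField 𝒪 := eW.toLinearMap.comp W.mkQ
  have hLT : ∀ t ∈ T, Lq t = 0 := fun t ht => by
    show eW (W.mkQ t) = 0
    rw [Submodule.mkQ_apply, (Submodule.Quotient.mk_eq_zero W).2 (hTW ht), map_zero]
  have hsm : ∀ (o : 𝒪) (a : A), Lq (algebraMap 𝒪 A o * a) = residue 𝒪 o * Lq a := fun o a => by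
    rw [← Algebra.smul_def, map_smul, Algebra.smul_def]; rfl
  obtain ⟨res, hres⟩ := exists_toResidueField hA
  have hmul : ∀ a b, Lq (a * b) = res a * Lq b + res b * Lq a := by
    intro a b
    obtain ⟨o, ho⟩ := testAlg_exists_lift hA.residue_surjective a
    obtain ⟨o', ho'⟩ := testAlg_exists_lift hA.residue_surjective b
    have hzero : (a - algebraMap 𝒪 A o) * (b - algebraMap 𝒪 A o') = 0 := by
      have := Ideal.mul_mem_mul ho ho'
      rwa [← pow_two, h2] at this
    have : a * b = algebraMap 𝒪 A o * b + algebraMap 𝒪 A o' * a - algebraMap 𝒪 A (o * o') := by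
      rw [map_mul]; linear_combination hzero
    rw [this, map_sub, map_add, hsm, hsm, hLT _ (T.algebraMap_mem _), hres a o ho, hres b o' ho',
      sub_zero]
  let φ : A →ₐ[𝒪] DN 𝒪 :=
    { toFun := fun a => TrivSqZeroExt.inl (res a) + TrivSqZeroExt.inr (Lq a)
      map_one' := by rw [map_one, hLT 1 T.one_mem]; simp
      map_zero' := by simp
      map_add' := fun a b => by ext <;> simp
      map_mul' := fun a b => by
        ext
        · simp
        · simp [hmul, add_comm, mul_comm]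
      commutes' := fun o => by
        rw [hLT _ (T.algebraMap_mem o), res.commutes]
        ext <;> simp [TrivSqZeroExt.algebraMap_eq_inl'] }
  let φ₀ : A →ₐ[𝒪] DN 𝒪 :=
    ((TrivSqZeroExt.inlAlgHom (ResidueField 𝒪) (ResidueField 𝒪) (ResidueField 𝒪)).restrictScalars
      𝒪).comp res
  have heq : mapRep (φ : A →+* DN 𝒪) r = mapRep (φ₀ : A →+* DN 𝒪) r := by
    refine hsep _ _ (h.map h𝒟 hA isTestAlgebra_DN φ) (h.map h𝒟 hA isTestAlgebra_DN φ₀) ?_
    funext x
    show φ (entries e r x) = φ₀ (entries e r x)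
    have h0 := hLT (entries e r x) (Algebra.subset_adjoin ⟨x, rfl⟩)
    ext <;> simp [φ, φ₀, h0]
  have hφ : φ = φ₀ := by
    refine AlgHom.ext_of_adjoin_eq_top hall ?_
    rintro _ ⟨⟨σ, i, j⟩, rfl⟩
    exact congrFun (congrFun (DFunLike.congr_fun heq σ) i) j
  have hL0 : ∀ a, Lq a = 0 := fun a => by
    have := congrArg TrivSqZeroExt.snd (DFunLike.congr_fun hφ a)
    simpa [φ, φ₀] using this
  refine hW.1 (eq_top_iff.2 fun a _ => ?_)
  have := hL0 a
  change eW (W.mkQ a) = 0 at this
  rwa [LinearEquiv.map_eq_zero_iff, Submodule.mkQ_apply, Submodule.Quotient.mk_eq_zero] at this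

include h𝒟 in
lemma generation_top (hsep : Separates F 𝒟 e) {A : Type} [CommRing A] [IsLocalRing A]
    [Algebra 𝒪 A] (hA : GaloisRep.IsArtinianTestAlgebra 𝒪 A) {r : Γ →* M2 A} (h : IsLift F 𝒟 r)
    (hall : Algebra.adjoin 𝒪 (Set.range (allEntries r)) = ⊤) :
    Algebra.adjoin 𝒪 (Set.range (entries e r)) = ⊤ := by
  set T := Algebra.adjoin 𝒪 (Set.range (entries e r)) with hT
  have hne : maximalIdeal A ^ 2 ≠ ⊤ := fun hh =>
    (maximalIdeal.isMaximal A).ne_top (eq_top_iff.2 (hh ▸ Ideal.pow_le_self two_ne_zero))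
  have := quotient_isLocalRing (maximalIdeal A ^ 2) hne
  let q := Ideal.Quotient.mkₐ 𝒪 (maximalIdeal A ^ 2)
  have hq : Function.Surjective q := Ideal.Quotient.mk_surjective
  have hB := isTestAlgebra_of_surjective hA q hq
  have hmax : maximalIdeal (A ⧸ maximalIdeal A ^ 2) ^ 2 = ⊥ := by
    have hloc : IsLocalHom (Ideal.Quotient.mk (maximalIdeal A ^ 2)) :=
      IsLocalHom.of_surjective _ Ideal.Quotient.mk_surjective
    have : maximalIdeal (A ⧸ maximalIdeal A ^ 2) ≤
        (maximalIdeal A).map (Ideal.Quotient.mk (maximalIdeal A ^ 2)) := by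
      intro y hy
      obtain ⟨x, rfl⟩ := Ideal.Quotient.mk_surjective y
      exact Ideal.mem_map_of_mem _ (fun hu => hy (hu.map _))
    refine eq_bot_iff.2 ((Ideal.pow_right_mono this 2).trans ?_)
    rw [← Ideal.map_pow, Ideal.map_quotient_self]
  have hallB : Algebra.adjoin 𝒪
      (Set.range (allEntries (mapRep (q : A →+* A ⧸ maximalIdeal A ^ 2) r))) = ⊤ := by
    have e1 : Set.range (allEntries (mapRep (q : A →+* A ⧸ maximalIdeal A ^ 2) r)) =
        q '' Set.range (allEntries r) := Set.range_comp q (allEntries r)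
    rw [e1, ← AlgHom.map_adjoin q, hall, Algebra.map_top, (AlgHom.range_eq_top q).2 hq]
  have hgen := generation_sq_zero (e := e) h𝒟 hsep hB hmax (h.map h𝒟 hA hB q) hallB
  have himg : T.map q = ⊤ := by
    have e2 : Set.range (entries e (mapRep (q : A →+* A ⧸ maximalIdeal A ^ 2) r)) =
        q '' Set.range (entries e r) := Set.range_comp q (entries e r)
    rw [e2, ← AlgHom.map_adjoin q] at hgen
    exact hgen
  have base : ∀ a : A, ∃ t ∈ T, a - t ∈ maximalIdeal A ^ 2 := by
    intro a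
    obtain ⟨t, ht, hta⟩ := (himg.symm ▸ Algebra.mem_top : q a ∈ T.map q)
    exact ⟨t, ht, (Ideal.Quotient.mk_eq_mk_iff_sub_mem _ _).1 hta.symm⟩
  have step : ∀ i, ∀ a ∈ maximalIdeal A ^ (i + 1), ∃ t ∈ T, a - t ∈ maximalIdeal A ^ (i + 2) := by
    intro i
    induction i with
    | zero => intro a _; exact base a
    | succ i ih =>
      intro a ha
      rw [pow_succ] at ha
      refine Submodule.mul_induction_on ha (fun x hx y hy => ?_) (fun x y hx hy => ?_)
      · obtain ⟨t, ht, hxt⟩ := ih x hx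
        obtain ⟨t', ht', hyt⟩ := base y
        refine ⟨t * t', T.mul_mem ht ht', ?_⟩
        have htm : t ∈ maximalIdeal A ^ (i + 1) := by
          have := Ideal.sub_mem _ hx (Ideal.pow_le_pow_right (Nat.le_succ _) hxt)
          simpa using this
        have : x * y - t * t' = (x - t) * y + t * (y - t') := by ring
        rw [this]
        refine Ideal.add_mem _ ?_ ?_
        · show _ ∈ maximalIdeal A ^ (i + 2 + 1)
          rw [pow_succ]; exact Ideal.mul_mem_mul hxt hy
        · rw [show i + 1 + 2 = (i + 1) + 2 from rfl, pow_add]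
          exact Ideal.mul_mem_mul htm hyt
      · obtain ⟨t, ht, hxt⟩ := hx
        obtain ⟨t', ht', hyt⟩ := hy
        exact ⟨t + t', T.add_mem ht ht', by rw [add_sub_add_comm]; exact Ideal.add_mem _ hxt hyt⟩
  have all : ∀ n, ∀ a : A, ∃ t ∈ T, a - t ∈ maximalIdeal A ^ (n + 1) := by
    intro n
    induction n with
    | zero =>
      intro a
      obtain ⟨t, ht, hat⟩ := base a
      exact ⟨t, ht, Ideal.pow_le_pow_right (by omega) hat⟩
    | succ n ih =>
      intro a
      obtain ⟨t, ht, hat⟩ := ih a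
      obtain ⟨t', ht', hat'⟩ := step n _ hat
      exact ⟨t + t', T.add_mem ht ht', by rwa [← sub_sub]⟩
  obtain ⟨N, hN⟩ := exists_maximalIdeal_pow_eq_bot hA
  rw [eq_top_iff]
  intro a _
  obtain ⟨t, ht, hat⟩ := all N a
  rw [pow_succ, hN, Ideal.bot_mul, Ideal.mem_bot, sub_eq_zero] at hat
  rwa [hat]

include h𝒟 in
/-- The entries at separating indices generate all entries. -/
lemma adjoin_allEntries_le (hsep : Separates F 𝒟 e) {A : Type} [CommRing A] [IsLocalRing A]
    [Algebra 𝒪 A] (hA : GaloisRep.IsArtinianTestAlgebra 𝒪 A) {r : Γ →* M2 A} (h : IsLift F 𝒟 r) :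
    Algebra.adjoin 𝒪 (Set.range (allEntries r)) ≤
      Algebra.adjoin 𝒪 (Set.range (entries e r)) := by
  have := finite_of_isArtinianTestAlgebra hA
  let S := Algebra.adjoin 𝒪 (Set.range (allEntries r))
  have := subalgebra_isLocalRing S
  have hS := isTestAlgebra_subalgebra hA S
  have hmem : ∀ σ i j, r σ i j ∈ S := fun σ i j => Algebra.subset_adjoin ⟨(σ, i, j), rfl⟩
  let rS : Γ →* M2 S :=
    { toFun := fun σ => Matrix.of fun i j => ⟨r σ i j, hmem σ i j⟩
      map_one' := by
        refine Matrix.ext fun i j => Subtype.ext ?_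
        show r 1 i j = _
        rw [map_one]
        fin_cases i <;> fin_cases j <;> simp
      map_mul' := fun σ τ => by
        ext i j
        simp [Matrix.mul_apply] }
  have hl : IsLift F 𝒟 rS := IsLift.of_injective h𝒟 hS hA S.val Subtype.val_injective h
  have hall : Algebra.adjoin 𝒪 (Set.range (allEntries rS)) = ⊤ := by
    refine Subalgebra.map_injective (f := S.val) Subtype.val_injective ?_
    rw [AlgHom.map_adjoin, ← Set.range_comp, Algebra.map_top, Subalgebra.range_val]
    rfl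
  have := congrArg (Subalgebra.map S.val) (generation_top h𝒟 hsep hS hl hall)
  rw [AlgHom.map_adjoin, ← Set.range_comp, Algebra.map_top, Subalgebra.range_val] at this
  exact this.ge

include h𝒟 in
/-- A lift is determined by its entries at separating indices. -/
lemma IsLift.ext_entries (hsep : Separates F 𝒟 e) {A : Type} [CommRing A] [IsLocalRing A]
    [Algebra 𝒪 A] (hA : GaloisRep.IsArtinianTestAlgebra 𝒪 A) {r r' : Γ →* M2 A}
    (h : IsLift F 𝒟 r) (h' : IsLift F 𝒟 r') (he : entries e r = entries e r') : r = r' := by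
  have := finite_of_isArtinianTestAlgebra hA
  have hloc := hA.isLocalHom
  let f : A →ₐ[𝒪] ResidueField A := IsScalarTower.toAlgHom 𝒪 A (ResidueField A)
  let P : Subalgebra 𝒪 (A × A) :=
    AlgHom.equalizer (f.comp (AlgHom.fst 𝒪 A A)) (f.comp (AlgHom.snd 𝒪 A A))
  let pA : P →ₐ[𝒪] A := (AlgHom.fst 𝒪 A A).comp P.val
  let pB : P →ₐ[𝒪] A := (AlgHom.snd 𝒪 A A).comp P.val
  have hP : ∀ x : P, residue A (x : A × A).1 = residue A (x : A × A).2 := fun x => x.2
  have hunit : ∀ x : P, IsUnit x ↔ IsUnit (x : A × A).1 := fun x => by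
    rw [subalgebra_isUnit_iff, Prod.isUnit_iff]
    refine ⟨And.left, fun hx => ⟨hx, IsUnit.of_map (residue A) _ ?_⟩⟩
    rw [← hP x]; exact hx.map _
  have : Nontrivial P :=
    ⟨⟨0, 1, fun hh => zero_ne_one (α := A) (congrArg (fun x : P => (x : A × A).1) hh)⟩⟩
  have hPloc : IsLocalRing P := IsLocalRing.of_isUnit_or_isUnit_one_sub_self fun x => by
    rw [hunit, hunit]; exact IsLocalRing.isUnit_or_isUnit_one_sub_self (x : A × A).1
  have : Finite P := Finite.of_injective _ Subtype.val_injective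
  have hPt : GaloisRep.IsArtinianTestAlgebra 𝒪 P := by
    refine ⟨⟨fun o ho => ?_⟩, fun y => ?_, inferInstance⟩
    · exact IsUnit.of_map (algebraMap 𝒪 A) o ((hunit _).1 ho)
    · obtain ⟨x, rfl⟩ := residue_surjective y
      obtain ⟨o, ho⟩ := testAlg_exists_lift hA.residue_surjective (x : A × A).1
      refine ⟨o, ?_⟩
      show residue P (algebraMap 𝒪 P o) = residue P x
      rw [eq_comm, ← sub_eq_zero, ← map_sub, residue_eq_zero_iff]
      exact fun hu => ho ((hunit _).1 hu)
  have hagree : ∀ σ i j, residue A (r σ i j) = residue A (r' σ i j) := fun σ i j => by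
    rw [← sub_eq_zero, ← map_sub, residue_eq_zero_iff]
    have := Ideal.sub_mem _ (h.norm.res σ i j) (h'.norm.res σ i j)
    simpa using this
  let rP : Γ →* M2 P :=
    { toFun := fun σ => Matrix.of fun i j => ⟨(r σ i j, r' σ i j), hagree σ i j⟩
      map_one' := by
        ext i j <;> fin_cases i <;> fin_cases j <;> simp
      map_mul' := fun σ τ => by
        ext i j <;> simp [Matrix.mul_apply] }
  have hl : IsLift F 𝒟 rP :=
    IsLift.of_fibreProduct h𝒟 hA hA (isTestAlgebra_residueField hA) hPt f f pA pB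
      (AlgHom.ext hP) (fun x y hxy => Subtype.ext hxy)
      (fun a b hab => ⟨⟨(a, b), hab⟩, rfl, rfl⟩) h h'
  have hle := adjoin_allEntries_le h𝒟 hsep hPt hl
  have hdiag : Algebra.adjoin 𝒪 (Set.range (entries e rP)) ≤ AlgHom.equalizer pA pB := by
    rw [Algebra.adjoin_le_iff]
    rintro _ ⟨x, rfl⟩
    exact congrFun he x
  refine MonoidHom.ext fun σ => Matrix.ext fun i j => ?_
  exact hdiag (hle (Algebra.subset_adjoin ⟨(σ, i, j), rfl⟩))

end Generation

end FermatAgent.DefRing
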