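import Fermat.Agent.DefRing.Normal

/-!
Burnside's theorem for two-dimensional representations and existence of frames.
-/

set_option autoImplicit false

noncomputable section

namespace FermatAgent.DefRing

open IsLocalRing Matrix

/-- Burnside in dimension two. -/
lemma burnside_two {K : Type} [Field K] [IsAlgClosed K] (S : Subalgebra K (M2 K))
    (hirr : ∀ W : Submodule K (Fin 2 → K), (∀ M ∈ S, ∀ x ∈ W, M *ᵥ x ∈ W) → W = ⊥ ∨ W = ⊤) :
    S = ⊤ := by
  have hne : ∀ w : Fin 2 → K, w ≠ 0 →
      ∀ W : Submodule K (Fin 2 → K), (∀ M ∈ S, M *ᵥ w ∈ W) → W = ⊤ := by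
    intro w hw W hW
    let W' : Submodule K (Fin 2 → K) :=
      (Subalgebra.toSubmodule S).map ((Matrix.mulVecBilin K K).flip w)
    have hmem : ∀ M ∈ S, M *ᵥ w ∈ W' := fun M hM => ⟨M, hM, rfl⟩
    rcases hirr W' (by
      rintro M hM _ ⟨N, hN, rfl⟩
      exact ⟨M * N, S.mul_mem hM hN, (Matrix.mulVec_mulVec w M N).symm⟩) with h | h
    · have := hmem 1 S.one_mem
      rw [h, Submodule.mem_bot, Matrix.one_mulVec] at this
      exact absurd this hw
    · rw [eq_top_iff, ← h]
      rintro _ ⟨M, hM, rfl⟩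
      exact hW M hM
  obtain ⟨N, hN, hN0, hNdet⟩ : ∃ N ∈ S, N ≠ 0 ∧ N.det = 0 := by
    by_contra hcon
    have hscal : ∀ M ∈ S, ∃ c : K, M = c • (1 : M2 K) := by
      intro M hM
      obtain ⟨c, hc⟩ := Module.End.exists_eigenvalue (Matrix.toLin' M)
      obtain ⟨x, hx⟩ := hc.exists_hasEigenvector
      refine ⟨c, sub_eq_zero.1 ?_⟩
      by_contra hne0
      refine hcon ⟨M - c • 1, S.sub_mem hM (S.smul_mem S.one_mem c), hne0, ?_⟩
      refine Matrix.exists_mulVec_eq_zero_iff.1 ⟨x, hx.2, ?_⟩
      have := hx.apply_eq_smul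
      rw [Matrix.toLin'_apply] at this
      rw [Matrix.sub_mulVec, Matrix.smul_mulVec, Matrix.one_mulVec, this, sub_self]
    have hx0 : (Pi.single 0 1 : Fin 2 → K) ≠ 0 := by simp
    rcases hirr (K ∙ (Pi.single 0 1 : Fin 2 → K)) (by
      intro M hM x hx
      obtain ⟨c, rfl⟩ := hscal M hM
      rw [Matrix.smul_mulVec, Matrix.one_mulVec]
      exact Submodule.smul_mem _ _ hx) with h | h
    · exact hx0 (Submodule.span_singleton_eq_bot.1 h)
    · have h2 : Module.finrank K (Fin 2 → K) = 1 := by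
        rw [← finrank_top, ← h, finrank_span_singleton hx0]
      simp at h2
  obtain ⟨u, φ, hu, hφ, rfl⟩ : ∃ u φ : Fin 2 → K, u ≠ 0 ∧ φ ≠ 0 ∧ N = vecMulVec u φ := by
    rw [Matrix.det_fin_two] at hNdet
    by_cases h00 : N 0 0 ≠ 0
    · refine ⟨![N 0 0, N 1 0], ![1, N 0 1 / N 0 0],
        fun h => h00 (by simpa using congrFun h 0), fun h => by simpa using congrFun h 0, ?_⟩
      ext i j
      fin_cases i <;> fin_cases j <;> simp [vecMulVec_apply]
      · field_simp
      · field_simp; linear_combination hNdet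
    · push Not at h00
      by_cases h01 : N 0 1 ≠ 0
      · refine ⟨![N 0 1, N 1 1], ![0, 1], fun h => h01 (by simpa using congrFun h 0),
          fun h => by simpa using congrFun h 1, ?_⟩
        have h10 : N 1 0 = 0 := by
          simp [h00, h01] at hNdet
          exact hNdet
        ext i j
        fin_cases i <;> fin_cases j <;> simp [vecMulVec_apply, h00, h10]
      · push Not at h01
        refine ⟨![0, 1], ![N 1 0, N 1 1], fun h => by simpa using congrFun h 1, fun h => hN0 ?_, ?_⟩
        · ext i j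
          have e1 := congrFun h 0
          have e2 := congrFun h 1
          fin_cases i <;> fin_cases j <;> simp_all
        · ext i j
          fin_cases i <;> fin_cases j <;> simp [vecMulVec_apply, h00, h01]
  -- all products `s * N * t` lie in `S`
  have step1 : ∀ a, ∀ t ∈ S, vecMulVec a (φ ᵥ* t) ∈ S := by
    intro a t ht
    let W : Submodule K (Fin 2 → K) :=
      (Subalgebra.toSubmodule S).comap ((vecMulVecBilin K K).flip (φ ᵥ* t))
    have : W = ⊤ := hne u hu W fun s hs => by
      show vecMulVec (s *ᵥ u) (φ ᵥ* t) ∈ S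
      rw [← Matrix.vecMulVec_mul, ← Matrix.mul_vecMulVec]
      exact S.mul_mem (S.mul_mem hs hN) ht
    exact this.ge Submodule.mem_top (x := a)
  let D : Submodule K (Fin 2 → K) :=
    (Subalgebra.toSubmodule S).map (Matrix.mulVecBilin K K |>.flip φ |>.comp
      (Matrix.transposeLinearEquiv (Fin 2) (Fin 2) K K).toLinearMap)
  have hD : D = ⊤ := by
    by_contra hD
    obtain ⟨f, hf0, hfD⟩ := Submodule.exists_le_ker_of_lt_top D (lt_top_iff_ne_top.2 hD)
    let w : Fin 2 → K := fun j => f (Pi.single j 1)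
    have hw : ∀ ψ : Fin 2 → K, f ψ = ψ ⬝ᵥ w := by
      intro ψ
      rw [LinearMap.pi_apply_eq_sum_univ f ψ]
      simp only [dotProduct, smul_eq_mul, w]
      refine Finset.sum_congr rfl fun j _ => ?_
      congr 1
      refine congrArg f ?_
      ext l; simp [Pi.single_apply, eq_comm]
    have hw0 : w ≠ 0 := fun h => hf0 (LinearMap.ext fun ψ => by simp [hw, h])
    let W : Submodule K (Fin 2 → K) := LinearMap.ker (dotProductBilin K K φ)
    have : W = ⊤ := hne w hw0 W fun s hs => by
      show φ ⬝ᵥ (s *ᵥ w) = 0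
      rw [Matrix.dotProduct_mulVec, ← hw]
      refine hfD ⟨s, hs, ?_⟩
      exact (Matrix.mulVec_transpose s φ)
    refine hφ (funext fun j => ?_)
    have := this.ge (Submodule.mem_top (x := Pi.single j 1))
    simpa [W] using this
  rw [eq_top_iff]
  intro M _
  have hab : ∀ a b, vecMulVec a b ∈ S := by
    intro a b
    obtain ⟨t, ht, hb⟩ := hD.ge (Submodule.mem_top (x := b))
    have hb' : φ ᵥ* t = b := by rw [← hb]; exact (Matrix.mulVec_transpose t φ).symm
    exact hb' ▸ step1 a t ht
  rw [Matrix.matrix_eq_sum_single M]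
  exact S.sum_mem fun i _ => S.sum_mem fun j _ => by
    rw [show Matrix.single i j (M i j) = vecMulVec (Pi.single i (M i j)) (Pi.single j 1) by
      ext a b; rcases eq_or_ne a i with rfl | ha <;> rcases eq_or_ne b j with rfl | hb <;> simp [vecMulVec_apply, *, Ne.symm]]
    exact hab _ _

variable {k : Type} [Field k]

/-- The values of an absolutely irreducible representation span the matrix algebra. -/
lemma span_rmat_eq_top (ρ : ResidualGaloisRep k) (habs : ρ.IsAbsolutelyIrreducible)
    (b : Module.Basis (Fin 2) k ρ.V) :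
    Submodule.span k (Set.range (rmat b ρ.ρ)) = ⊤ := by
  by_contra hne
  obtain ⟨f, hf0, hf⟩ := Submodule.exists_le_ker_of_lt_top (Submodule.span k (Set.range (rmat b ρ.ρ)))
    (lt_top_iff_ne_top.2 hne)
  let K := AlgebraicClosure k
  let ψ := algebraMap k K
  have hbasis : rmat (Algebra.TensorProduct.basis K b) (ρ.baseChange K).ρ = mapRep ψ (rmat b ρ.ρ) := by
    ext1 σ
    exact LinearMap.toMatrix_baseChange K (ρ.ρ σ) b b
  let S : Subalgebra K (M2 K) := Algebra.adjoin K (Set.range (mapRep ψ (rmat b ρ.ρ)))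
  have hS : S = ⊤ := burnside_two S fun W hW => by
    let e := (Algebra.TensorProduct.basis K b).equivFun
    rcases habs (W.comap e.toLinearMap) (fun σ x hx => by
      show e ((ρ.baseChange K).ρ σ x) ∈ W
      have : e ((ρ.baseChange K).ρ σ x) = mapRep ψ (rmat b ρ.ρ) σ *ᵥ e x := by
        rw [← hbasis]
        exact (LinearMap.toMatrix_mulVec_repr (Algebra.TensorProduct.basis K b)
          (Algebra.TensorProduct.basis K b) ((ρ.baseChange K).ρ σ) x).symm
      rw [this]
      exact hW _ (Algebra.subset_adjoin ⟨σ, rfl⟩) _ hx) with h | h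
    · left
      rw [eq_bot_iff]
      intro y hy
      have : e.symm y ∈ W.comap e.toLinearMap := by simpa using hy
      rw [h, Submodule.mem_bot] at this
      simpa using congrArg e this
    · right
      rw [eq_top_iff]
      intro y _
      have : e.symm y ∈ W.comap e.toLinearMap := h ▸ Submodule.mem_top
      simpa using this
  let g : M2 K →ₗ[K] K :=
    ∑ i, ∑ j, ψ (f (Matrix.single i j 1)) • Matrix.entryLinearMap K K i j
  have hg : ∀ M : M2 k, g (M.map ψ) = ψ (f M) := by
    intro M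
    conv_rhs => rw [Matrix.matrix_eq_sum_single M]
    simp only [g, map_sum, LinearMap.sum_apply]
    refine Finset.sum_congr rfl fun i _ => Finset.sum_congr rfl fun j _ => ?_
    have : Matrix.single i j (M i j) = M i j • Matrix.single i j (1 : k) := by simp
    rw [this, map_smul, smul_eq_mul, map_mul]
    simp only [LinearMap.smul_apply, Matrix.entryLinearMap_apply, Matrix.map_apply, smul_eq_mul]
    ring
  have hgS : Subalgebra.toSubmodule S ≤ LinearMap.ker g := by
    rw [show S = Algebra.adjoin K (Set.range (mapRep ψ (rmat b ρ.ρ))) from rfl,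
      Algebra.adjoin_eq_span, Submodule.span_le]
    intro M hM
    have : Submonoid.closure (Set.range (mapRep ψ (rmat b ρ.ρ))) =
        MonoidHom.mrange (mapRep ψ (rmat b ρ.ρ)) := by
      rw [← MonoidHom.coe_mrange, Submonoid.closure_eq]
    rw [this] at hM
    obtain ⟨σ, rfl⟩ := hM
    show g ((rmat b ρ.ρ σ).map ψ) = 0
    rw [hg, LinearMap.mem_ker.1 (hf (Submodule.subset_span ⟨σ, rfl⟩)), map_zero]
  refine hf0 (LinearMap.ext fun M => ?_)
  have : M.map ψ ∈ Subalgebra.toSubmodule S := by rw [hS]; trivial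
  have := hgS this
  rw [LinearMap.mem_ker, hg, map_eq_zero] at this
  simpa using this

variable {𝒪 : Type} [CommRing 𝒪] [IsLocalRing 𝒪]

/-- Every absolutely irreducible residual representation has a frame. -/
lemma exists_frame (ρ : ResidualGaloisRep (ResidueField 𝒪)) (habs : ρ.IsAbsolutelyIrreducible)
    (b : Module.Basis (Fin 2) (ResidueField 𝒪) ρ.V) :
    ∃ F : Frame 𝒪, ∀ σ, (F.bt σ).map (residue 𝒪) = rmat b ρ.ρ σ := by
  have hsurj := residue_surjective (R := 𝒪)
  let bt : Γ → M2 𝒪 := fun σ => (rmat b ρ.ρ σ).map (Function.surjInv hsurj)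
  have hbt : ∀ σ, (bt σ).map (residue 𝒪) = rmat b ρ.ρ σ := fun σ => by
    ext i j; exact Function.surjInv_eq hsurj _
  have key : ∀ M : M2 (ResidueField 𝒪), ∃ (l : List (𝒪 × Γ)),
      (l.map fun p => residue 𝒪 p.1 • rmat b ρ.ρ p.2).sum = M := by
    intro M
    refine Submodule.span_induction (p := fun M _ => ∃ (l : List (𝒪 × Γ)),
      (l.map fun p => residue 𝒪 p.1 • rmat b ρ.ρ p.2).sum = M) ?_ ?_ ?_ ?_
      ((span_rmat_eq_top ρ habs b).ge (Submodule.mem_top (x := M)))
    · rintro _ ⟨σ, rfl⟩; exact ⟨[(1, σ)], by simp⟩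
    · exact ⟨[], rfl⟩
    · rintro x y _ _ ⟨l, rfl⟩ ⟨l', rfl⟩; exact ⟨l ++ l', by simp⟩
    · rintro a x _ ⟨l, rfl⟩
      obtain ⟨o, rfl⟩ := hsurj a
      refine ⟨l.map fun p => (o * p.1, p.2), ?_⟩
      rw [List.smul_sum]
      simp [List.map_map, Function.comp_def, mul_smul]
  obtain ⟨la, hla⟩ := key !![1, 0; 0, 0]
  obtain ⟨lb, hlb⟩ := key !![0, 1; 0, 0]
  let pts : Fin (la.length + lb.length) → Γ :=
    Fin.append (fun i => la[i].2) (fun i => lb[i].2)
  have hsum : ∀ c : Fin (la.length + lb.length) → 𝒪,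
      (∑ s, c s • bt (pts s)).map (residue 𝒪) = ∑ s, residue 𝒪 (c s) • rmat b ρ.ρ (pts s) := by
    intro c
    ext i j
    simp [Matrix.sum_apply, ← hbt, map_sum]
  refine ⟨⟨bt, _, pts, Fin.append (fun i => la[i].1) 0, Fin.append 0 (fun i => lb[i].1),
    ?_, ?_⟩, hbt⟩
  · rw [hsum, Fin.sum_univ_add, ← hla, ← List.ofFn_getElem_eq_map, List.sum_ofFn]
    simp [pts]
  · rw [hsum, Fin.sum_univ_add, ← hlb, ← List.ofFn_getElem_eq_map, List.sum_ofFn]
    simp [pts]

end FermatAgent.DefRing
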