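import Fermat.Agent.DefRing.Points
import Fermat.Prelude.Thm_IsLocalRing_isAdicComplete_of_module_finite

/-!
The limit ring of the minimal points and its universal lift.
-/

set_option autoImplicit false

noncomputable section

namespace FermatAgent.DefRing

open IsLocalRing

/-- Lifting a sequence compatible with a slowly decreasing family of ideals to a limit. -/
lemma exists_limit {P : Type} [CommRing P] (M : Ideal P) [IsAdicComplete M P] (I : ℕ → Ideal P)
    (hM : ∀ n, M ^ (n + 1) ≤ I n)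
    (hstep : ∀ n, I n ≤ I (n + 1) ⊔ M ^ (n + 1)) (N : ℕ) (y : ℕ → P)
    (hy : ∀ k, y (k + 1) - y k ∈ I (N + k)) (z₀ : P) (hz₀ : z₀ - y 0 ∈ I N) :
    ∃ L, L - z₀ ∈ M ^ (N + 1) ∧ ∀ k, L - y k ∈ I (N + k) := by
  have hex : ∀ k z, z - y k ∈ I (N + k) →
      ∃ z', z' - y (k + 1) ∈ I (N + (k + 1)) ∧ z' - z ∈ M ^ (N + k + 1) := by
    intro k z hz
    have h1 : y (k + 1) - z ∈ I (N + k) := by
      have := Ideal.sub_mem _ (hy k) hz
      simpa using this
    obtain ⟨a, ha, b, hb, hab⟩ := Submodule.mem_sup.1 (hstep (N + k) h1)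
    refine ⟨z + b, ?_, by simpa using hb⟩
    rw [show z + b - y (k + 1) = -a by linear_combination hab]
    exact Submodule.neg_mem _ ha
  choose! next hnext₁ hnext₂ using hex
  let z : ℕ → P := fun k => Nat.rec z₀ next k
  have hz : ∀ k, z k - y k ∈ I (N + k) := fun k => by
    induction k with
    | zero => exact hz₀
    | succ k ih => exact hnext₁ k _ ih
  have hd : ∀ k j, z (k + j) - z k ∈ M ^ (N + k + 1) := fun k j => by
    induction j with
    | zero => simp
    | succ j ih =>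
      have h1 : z (k + j + 1) - z (k + j) ∈ M ^ (N + k + 1) :=
        Ideal.pow_le_pow_right (by omega) (hnext₂ (k + j) _ (hz _))
      have := Ideal.add_mem _ h1 ih
      simpa [← add_assoc] using this
  obtain ⟨L, hL⟩ := IsPrecomplete.prec (I := M) inferInstance (f := z) fun {k j} hkj => by
    obtain ⟨d, rfl⟩ := Nat.exists_eq_add_of_le hkj
    rw [SModEq.sub_mem, smul_eq_mul, Ideal.mul_top, ← neg_sub]
    exact Submodule.neg_mem _ (Ideal.pow_le_pow_right (by omega) (hd k d))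
  have hLz : ∀ k, L - z k ∈ M ^ (N + k + 1) := fun k => by
    have h1 := hL (N + k + 1)
    rw [SModEq.sub_mem, smul_eq_mul, Ideal.mul_top, ← neg_sub] at h1
    have h2 : z (k + (N + 1)) - z k ∈ M ^ (N + k + 1) := hd k (N + 1)
    rw [show k + (N + 1) = N + k + 1 by omega] at h2
    have h1' := Submodule.neg_mem _ h1
    rw [neg_neg] at h1'
    have := Ideal.add_mem _ h1' h2
    simpa using this
  refine ⟨L, hLz 0, fun k => ?_⟩
  have := Ideal.add_mem _ (hM (N + k) (hLz k)) (hz k)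
  simpa using this

variable {𝒪 : Type} [CommRing 𝒪] [IsLocalRing 𝒪] [IsNoetherianRing 𝒪]
  [IsAdicComplete (maximalIdeal 𝒪) 𝒪] [Finite (ResidueField 𝒪)]
variable {F : Frame 𝒪}
variable {𝒟 : ∀ ⦃A : Type⦄ [CommRing A] [IsLocalRing A] [Algebra 𝒪 A], GaloisRepAdic A → Prop}
variable {ι : Type} [Finite ι] {e : ι → Γ × Fin 2 × Fin 2}
variable (h𝒟 : GaloisRep.IsDeformationCondition 𝒪 𝒟)

include h𝒟 in
/-- The universal lift, over the quotient of the power series ring by the intersection of all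
minimal points. -/
lemma exists_universal_lift (hsep : Separates F 𝒟 e) (r₀ : Γ →* M2 (ResidueField 𝒪))
    (hk : GaloisRep.IsArtinianTestAlgebra 𝒪 (ResidueField 𝒪)) (hr₀ : IsLift F 𝒟 r₀) :
    ∃ J : Ideal (MvPowerSeries ι 𝒪), ∃ _ : IsLocalRing (MvPowerSeries ι 𝒪 ⧸ J),
      ∃ r : Γ →* M2 (MvPowerSeries ι 𝒪 ⧸ J), IsLift F 𝒟 r ∧
        (∀ x, r (e x).1 (e x).2.1 (e x).2.2 = Ideal.Quotient.mk J (coord F e x)) ∧
        (∀ K : Ideal (MvPowerSeries ι 𝒪), IsPoint F 𝒟 e K → J ≤ K) := by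
  obtain ⟨I, hpt, hMI, hmin⟩ := exists_minimal_points h𝒟 hsep r₀ hk hr₀
  have := isAdicComplete_mvPowerSeries (ι := ι) (𝒪 := 𝒪)
  set M := maximalIdeal (MvPowerSeries ι 𝒪) with hMdef
  have hle : ∀ n, I n ≤ M := fun n => le_maximalIdeal fun hh => by
    obtain ⟨hl, -⟩ := hpt n
    exact not_subsingleton _ (Ideal.Quotient.subsingleton_iff.2 hh)
  have hanti : ∀ {n k}, n ≤ k → I k ≤ I n := fun {n k} hnk =>
    hmin k _ (hpt n) ((Ideal.pow_le_pow_right (by omega)).trans (hMI n))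
  have hstep : ∀ n, I n ≤ I (n + 1) ⊔ M ^ (n + 1) := fun n => by
    refine hmin n _ (isPoint_mono h𝒟 hsep (hpt (n + 1)) le_sup_left ?_) le_sup_right
    exact fun hh => (maximalIdeal.isMaximal (MvPowerSeries ι 𝒪)).ne_top (eq_top_iff.2
      (hh ▸ sup_le (hle _) (Ideal.pow_le_self (Nat.succ_ne_zero n))))
  choose hloc rn hrn hN hen using hpt
  have tI : ∀ n, haveI := hloc n
      GaloisRep.IsArtinianTestAlgebra 𝒪 (MvPowerSeries ι 𝒪 ⧸ I n) := fun n =>
    have := hloc n
    isTestAlgebra_quotient (hMI n)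
  have hcompat : ∀ n σ i j,
      Ideal.Quotient.factor (hanti (Nat.le_succ n)) (rn (n + 1) σ i j) = rn n σ i j := by
    intro n σ i j
    have := hloc n
    have := hloc (n + 1)
    have h := IsLift.ext_entries h𝒟 hsep (tI n)
      ((hrn (n + 1)).map h𝒟 (tI _) (tI n) (Ideal.Quotient.factorₐ 𝒪 (hanti (Nat.le_succ n))))
      (hrn n) (by rw [entries_mapRep, hen, hen]; rfl)
    exact congrFun (congrFun (DFunLike.congr_fun h σ) i) j
  choose y hy using fun n σ i j => Ideal.Quotient.mk_surjective (rn n σ i j)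
  have hlim : ∀ σ i j, ∃ L, ∀ k, L - y k σ i j ∈ I k := by
    intro σ i j
    obtain ⟨L, -, hL⟩ := exists_limit M I hMI hstep 0 (fun k => y k σ i j) (fun k => by
      rw [Nat.zero_add]
      refine (Ideal.Quotient.mk_eq_mk_iff_sub_mem _ _).1 ?_
      rw [hy, ← hcompat k, ← hy]
      rfl) (y 0 σ i j) (by simp)
    exact ⟨L, fun k => by simpa using hL k⟩
  choose L hL using hlim
  have hL' : ∀ n σ i j, Ideal.Quotient.mk (I n) (L σ i j) = rn n σ i j := fun n σ i j => by
    rw [← hy, Ideal.Quotient.mk_eq_mk_iff_sub_mem]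
    exact hL σ i j n
  set J : Ideal (MvPowerSeries ι 𝒪) := ⨅ n, I n with hJdef
  have hJI : ∀ n, J ≤ I n := fun n => iInf_le I n
  have hIJ : ∀ n, I n ≤ J ⊔ M ^ (n + 1) := by
    intro n x hx
    obtain ⟨L', hL₀, hLk⟩ := exists_limit M I hMI hstep n (fun _ => 0) (fun k => by simp) x
      (by simpa using hx)
    have hLJ : L' ∈ J := (Submodule.mem_iInf I).2 fun m => by
      have := hLk m
      simp only [sub_zero] at this
      exact hanti (by omega) this
    rw [show x = L' + -(L' - x) by ring]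
    exact Submodule.add_mem_sup hLJ (Submodule.neg_mem _ hL₀)
  have hJne : J ≠ ⊤ := fun hh => (maximalIdeal.isMaximal (MvPowerSeries ι 𝒪)).ne_top
    (eq_top_iff.2 (hh ▸ (hJI 0).trans (hle 0)))
  have hlocJ := quotient_isLocalRing J hJne
  let π : ∀ n, MvPowerSeries ι 𝒪 ⧸ J →ₐ[𝒪] MvPowerSeries ι 𝒪 ⧸ I n := fun n =>
    Ideal.Quotient.factorₐ 𝒪 (hJI n)
  have hπ : ∀ x x' : MvPowerSeries ι 𝒪 ⧸ J, (∀ n, π n x = π n x') → x = x' := by
    intro x x'
    obtain ⟨x, rfl⟩ := Ideal.Quotient.mk_surjective x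
    obtain ⟨x', rfl⟩ := Ideal.Quotient.mk_surjective x'
    intro h
    exact (Ideal.Quotient.mk_eq_mk_iff_sub_mem x x').2
      ((Submodule.mem_iInf I).2 fun n => (Ideal.Quotient.mk_eq_mk_iff_sub_mem x x').1 (h n))
  let r : Γ →* M2 (MvPowerSeries ι 𝒪 ⧸ J) :=
    { toFun := fun σ => Matrix.of fun i j => Ideal.Quotient.mk J (L σ i j)
      map_one' := by
        refine Matrix.ext fun i j => hπ _ _ fun n => ?_
        show Ideal.Quotient.mk (I n) (L 1 i j) = π n _
        rw [hL', map_one]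
        fin_cases i <;> fin_cases j <;> simp
      map_mul' := fun σ τ => by
        refine Matrix.ext fun i j => hπ _ _ fun n => ?_
        show Ideal.Quotient.mk (I n) (L (σ * τ) i j) = π n _
        rw [hL', map_mul]
        simp only [Matrix.mul_apply, Matrix.of_apply, map_sum, map_mul]
        exact Finset.sum_congr rfl fun l _ => congrArg₂ (· * ·) (hL' n σ i l).symm (hL' n τ l j).symm }
  have hπr : ∀ n, mapRep (π n : _ →+* MvPowerSeries ι 𝒪 ⧸ I n) r = rn n := fun n =>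
    MonoidHom.ext fun σ => Matrix.ext fun i j => hL' n σ i j
  have : IsLocalHom (Ideal.Quotient.mk J) := IsLocalHom.of_surjective _ Ideal.Quotient.mk_surjective
  have hmaxJ : maximalIdeal (MvPowerSeries ι 𝒪 ⧸ J) = M.map (Ideal.Quotient.mk J) := by
    refine le_antisymm (fun z hz => ?_) (Ideal.map_le_iff_le_comap.2 fun x hx =>
      Ideal.mem_comap.2 (map_nonunit _ x hx))
    obtain ⟨x, rfl⟩ := Ideal.Quotient.mk_surjective z
    exact Ideal.mem_map_of_mem _ (fun hu => hz (hu.map _))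
  have hnorm : IsNorm F r := by
    refine ⟨fun n => ?_, fun σ i j => ?_, ?_, ?_, ?_⟩
    · have := hloc n
      obtain ⟨N, hNn⟩ := exists_maximalIdeal_pow_eq_bot (tI n)
      obtain ⟨K, hK, hK'⟩ := (hrn n).norm.cont N
      refine ⟨K, hK, fun σ hσ i j => ?_⟩
      have h0 := hK' σ hσ i j
      rw [hNn, Ideal.mem_bot, ← hπr n] at h0
      have h1 : π n ((r σ - 1) i j) = 0 := by
        rw [← h0]
        simp [Matrix.one_apply, apply_ite (π n)]
      obtain ⟨x, hx⟩ := Ideal.Quotient.mk_surjective ((r σ - 1) i j)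
      rw [← hx] at h1 ⊢
      obtain ⟨a, ha, b, hb, rfl⟩ := Submodule.mem_sup.1 (hIJ n (Ideal.Quotient.eq_zero_iff_mem.1 h1))
      rw [map_add, Ideal.Quotient.eq_zero_iff_mem.2 ha, zero_add, hmaxJ, ← Ideal.map_pow]
      exact Ideal.mem_map_of_mem _ (Ideal.pow_le_pow_right (Nat.le_succ n) hb)
    · have := hloc 0
      intro hu
      have h1 := hu.map (π 0)
      rw [map_sub, AlgHom.commutes] at h1
      have h2 : π 0 (r σ i j) = rn 0 σ i j := hL' 0 σ i j
      rw [h2] at h1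
      exact (hrn 0).norm.res σ i j h1
    · refine hπ _ _ fun n => ?_
      have := hloc n
      rw [map_zero, ← (hrn n).norm.upper, ← hπr n, comb_map, Matrix.map_apply]
    · refine hπ _ _ fun n => ?_
      have := hloc n
      rw [map_zero, ← (hrn n).norm.lower, ← hπr n, comb_map, Matrix.map_apply]
    · refine hπ _ _ fun n => ?_
      have := hloc n
      rw [map_one, ← (hrn n).norm.one, ← hπr n, comb_map, Matrix.map_apply]
  refine ⟨J, hlocJ, r, ⟨hnorm, ?_⟩, fun x => hπ _ _ fun n => ?_, fun K hK => ?_⟩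
  · have : IsAdicComplete (maximalIdeal (MvPowerSeries ι 𝒪 ⧸ J)) (MvPowerSeries ι 𝒪 ⧸ J) := by
      have : IsLocalHom (algebraMap (MvPowerSeries ι 𝒪) (MvPowerSeries ι 𝒪 ⧸ J)) := this
      exact IsLocalRing.isAdicComplete_of_module_finite (𝒪 := MvPowerSeries ι 𝒪)
    have hlh : IsLocalHom (algebraMap 𝒪 (MvPowerSeries ι 𝒪 ⧸ J)) := by
      refine ⟨fun o ho => ?_⟩
      have h1 : IsUnit (algebraMap 𝒪 (MvPowerSeries ι 𝒪) o) :=
        IsUnit.of_map (Ideal.Quotient.mk J) _ ho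
      exact (isLocalHom_algebraMap (ι := ι) (𝒪 := 𝒪)).map_nonunit o h1
    have hres : Function.Surjective
        (residue (MvPowerSeries ι 𝒪 ⧸ J) ∘ algebraMap 𝒪 (MvPowerSeries ι 𝒪 ⧸ J)) := by
      intro z
      obtain ⟨z, rfl⟩ := residue_surjective z
      obtain ⟨p, rfl⟩ := Ideal.Quotient.mk_surjective z
      obtain ⟨o, ho⟩ := testAlg_exists_lift (residue_comp_algebraMap_surjective (ι := ι) (𝒪 := 𝒪)) p
      refine ⟨o, ?_⟩
      show residue _ (Ideal.Quotient.mk J (algebraMap 𝒪 _ o)) = _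
      rw [eq_comm, ← sub_eq_zero, ← map_sub, residue_eq_zero_iff, ← map_sub]
      exact map_nonunit _ _ ho
    refine (h𝒟.iff_forall_surjective hlh hres (toAdic r hnorm.cont)).2 ?_
    intro B _ _ _ hB q hq hqs
    obtain ⟨N, hNB⟩ := exists_maximalIdeal_pow_eq_bot hB
    have hkill : ∀ p ∈ I N, q (Ideal.Quotient.mk J p) = 0 := by
      intro p hp
      obtain ⟨a, ha, b, hb, rfl⟩ := Submodule.mem_sup.1 (hIJ N hp)
      rw [map_add, Ideal.Quotient.eq_zero_iff_mem.2 ha, zero_add]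
      have h1 : Ideal.Quotient.mk J b ∈ maximalIdeal (MvPowerSeries ι 𝒪 ⧸ J) ^ N := by
        rw [hmaxJ, ← Ideal.map_pow]
        exact Ideal.mem_map_of_mem _ (Ideal.pow_le_pow_right (Nat.le_succ N) hb)
      have h2 := Ideal.mem_map_of_mem (q : MvPowerSeries ι 𝒪 ⧸ J →+* B) h1
      rw [Ideal.map_pow] at h2
      have h3 : (maximalIdeal (MvPowerSeries ι 𝒪 ⧸ J)).map (q : MvPowerSeries ι 𝒪 ⧸ J →+* B) ≤
          maximalIdeal B := Ideal.map_le_iff_le_comap.2 fun x hx =>
        Ideal.mem_comap.2 (haveI := hq; map_nonunit _ x hx)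
      have h4 := Ideal.pow_right_mono h3 N h2
      rwa [hNB, Ideal.mem_bot] at h4
    let χ : MvPowerSeries ι 𝒪 ⧸ I N →ₐ[𝒪] B :=
      Ideal.Quotient.liftₐ (I N) (q.comp (Ideal.Quotient.mkₐ 𝒪 J)) hkill
    have := hloc N
    have hχl := (hrn N).map h𝒟 (tI N) hB χ
    have heq : mapRep (χ : _ →+* B) (rn N) = mapRep (q : _ →+* B) r :=
      MonoidHom.ext fun σ => Matrix.ext fun i j => by
        show χ (rn N σ i j) = q (Ideal.Quotient.mk J (L σ i j))
        rw [← hL' N σ i j]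
        rfl
    refine h𝒟.of_isEquiv hB ?_ hχl.mem
    obtain ⟨ee⟩ := isEquiv_baseChangeAlong_toAdic (q : _ →+* B) hq r hnorm.cont _ hχl.norm.cont heq
    exact ⟨ee.symm⟩
  · show Ideal.Quotient.mk (I n) (L _ _ _) = _
    rw [hL']
    exact congrFun (hen n) x
  · obtain ⟨hlK, rK, hrK, ⟨N, hNK⟩, heK⟩ := id hK
    exact (hJI N).trans (hmin N K hK ((Ideal.pow_le_pow_right (Nat.le_succ N)).trans hNK))

end FermatAgent.DefRing
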