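import Fermat.Prelude.Def_GaloisRep_Adic
import Mathlib

/-!
Matrix models of `GaloisRepAdic` and `ResidualGaloisRep`.
-/

set_option autoImplicit false

noncomputable section

namespace FermatAgent.DefRing

open scoped TensorProduct
open Matrix

/-- The absolute Galois group of `ℚ`. -/
abbrev Γ : Type := AlgebraicClosure ℚ ≃ₐ[ℚ] AlgebraicClosure ℚ

/-- Two by two matrices. -/
abbrev M2 (A : Type*) : Type _ := Matrix (Fin 2) (Fin 2) A

/-- Push a matrix representation forward along a ring homomorphism. -/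
def mapRep {A B : Type} [CommRing A] [CommRing B] (f : A →+* B) (r : Γ →* M2 A) : Γ →* M2 B :=
  f.mapMatrix.toMonoidHom.comp r

@[simp] lemma mapRep_apply {A B : Type} [CommRing A] [CommRing B] (f : A →+* B) (r : Γ →* M2 A)
    (σ : Γ) : mapRep f r σ = (r σ).map f := rfl

/-- The linear automorphism of an invertible matrix. -/
def matEquiv {A : Type} [CommRing A] (Q : M2 A) (hQ : IsUnit Q.det) :
    (Fin 2 → A) ≃ₗ[A] (Fin 2 → A) :=
  LinearEquiv.ofLinearMap (Matrix.toLin' Q) (Matrix.toLin' Q⁻¹)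
    (by rw [← Matrix.toLin'_mul, Matrix.mul_nonsing_inv Q hQ, Matrix.toLin'_one])
    (by rw [← Matrix.toLin'_mul, Matrix.nonsing_inv_mul Q hQ, Matrix.toLin'_one])

lemma matEquiv_mulVec {A : Type} [CommRing A] (Q : M2 A) (hQ : IsUnit Q.det) {M N : M2 A}
    (h : Q * M = N * Q) (x : Fin 2 → A) :
    matEquiv Q hQ (M *ᵥ x) = N *ᵥ matEquiv Q hQ x := by
  show Q *ᵥ (M *ᵥ x) = N *ᵥ (Q *ᵥ x)
  rw [Matrix.mulVec_mulVec, Matrix.mulVec_mulVec, h]

lemma mulVec_sub_self {A : Type} [CommRing A] (M : M2 A) (v : Fin 2 → A) (i : Fin 2) :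
    (M *ᵥ v - v) i = ∑ j, (M - 1) i j * v j := by
  have : M *ᵥ v - v = (M - 1) *ᵥ v := by rw [Matrix.sub_mulVec, Matrix.one_mulVec]
  rw [this]; rfl

section Adic

variable {A : Type} [CommRing A] [IsLocalRing A]

/-- Adic continuity of a matrix representation. -/
def IsCont (r : Γ →* M2 A) : Prop :=
  ∀ n : ℕ, ∃ L : IntermediateField ℚ (AlgebraicClosure ℚ), FiniteDimensional ℚ L ∧
    ∀ σ : Γ, (∀ x ∈ L, σ x = x) → ∀ i j, (r σ - 1) i j ∈ IsLocalRing.maximalIdeal A ^ n

omit [IsLocalRing A] in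
lemma pi_mem_smul_top_iff (I : Ideal A) (v : Fin 2 → A) :
    v ∈ I • (⊤ : Submodule A (Fin 2 → A)) ↔ ∀ i, v i ∈ I := by
  constructor
  · intro h
    refine Submodule.smul_induction_on h (fun a ha w _ i => ?_) (fun x y hx hy i => ?_)
    · exact I.mul_mem_right _ ha
    · exact I.add_mem (hx i) (hy i)
  · intro h
    rw [pi_eq_sum_univ v]
    exact Submodule.sum_mem _ fun i _ => Submodule.smul_mem_smul (h i) Submodule.mem_top

lemma isCont_map {B : Type} [CommRing B] [IsLocalRing B] (f : A →+* B) (hf : IsLocalHom f)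
    {r : Γ →* M2 A} (hr : IsCont r) : IsCont (mapRep f r) := by
  intro n
  obtain ⟨L, hL, h⟩ := hr n
  refine ⟨L, hL, fun σ hσ i j => ?_⟩
  have hmap : (IsLocalRing.maximalIdeal A ^ n).map f ≤ IsLocalRing.maximalIdeal B ^ n := by
    rw [Ideal.map_pow]
    exact Ideal.pow_right_mono (Ideal.map_le_iff_le_comap.mpr fun a ha =>
      Ideal.mem_comap.mpr (haveI := hf; map_nonunit f a ha)) n
  have h1 := hmap (Ideal.mem_map_of_mem f (h σ hσ i j))
  have : (mapRep f r σ - 1) i j = f ((r σ - 1) i j) := by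
    simp [Matrix.one_apply, apply_ite f]
  rw [this]
  exact h1

/-- The representation on `A²` given by a matrix representation. -/
def toAdic (r : Γ →* M2 A) (hr : IsCont r) : GaloisRepAdic A where
  V := Fin 2 → A
  finrank_eq := by simp
  ρ := (Matrix.toLinAlgEquiv' : M2 A ≃ₐ[A] _).toMonoidHom.comp r
  isAdicContinuous := by
    intro n
    obtain ⟨L, hL, h⟩ := hr n
    refine ⟨L, hL, fun σ hσ v => ?_⟩
    rw [pi_mem_smul_top_iff]
    intro i
    show ((r σ) *ᵥ v - v) i ∈ _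
    rw [mulVec_sub_self]
    exact Ideal.sum_mem _ fun j _ => Ideal.mul_mem_right _ _ (h σ hσ i j)

/-- The matrix of a representation in a basis. -/
def matrixOf {V : Type} [AddCommGroup V] [Module A V] (b : Module.Basis (Fin 2) A V)
    (ρ : Γ →* Module.End A V) : Γ →* M2 A :=
  (LinearMap.toMatrixAlgEquiv b).toMonoidHom.comp ρ

omit [IsLocalRing A] in
lemma matrixOf_apply {V : Type} [AddCommGroup V] [Module A V] (b : Module.Basis (Fin 2) A V)
    (ρ : Γ →* Module.End A V) (σ : Γ) : matrixOf b ρ σ = LinearMap.toMatrix b b (ρ σ) := rfl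

lemma isCont_matrixOf (ρ : GaloisRepAdic A) (b : Module.Basis (Fin 2) A ρ.V) :
    IsCont (matrixOf b ρ.ρ) := by
  intro n
  obtain ⟨L, hL, h⟩ := ρ.isAdicContinuous n
  refine ⟨L, hL, fun σ hσ i j => ?_⟩
  have h1 := h σ hσ (b j)
  have h2 : (matrixOf b ρ.ρ σ - 1) i j = b.repr (ρ.ρ σ (b j) - b j) i := by
    simp [matrixOf_apply, LinearMap.toMatrix_apply, Matrix.one_apply, Finsupp.single_apply, eq_comm]
  rw [h2]
  exact (pi_mem_smul_top_iff _ (b.equivFun (ρ.ρ σ (b j) - b j))).1 (by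
    have := Submodule.mem_map_of_mem (f := b.equivFun.toLinearMap) h1
    rw [Submodule.map_smul''] at this
    exact Submodule.smul_mono le_rfl le_top this) i

/-- A basis of an adic representation. -/
def stdBasis (ρ : GaloisRepAdic A) : Module.Basis (Fin 2) A ρ.V :=
  Module.finBasisOfFinrankEq A ρ.V ρ.finrank_eq

omit [IsLocalRing A] in
lemma equivFun_apply_matrixOf {V : Type} [AddCommGroup V] [Module A V]
    (b : Module.Basis (Fin 2) A V) (ρ : Γ →* Module.End A V) (σ : Γ) (x : V) :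
    b.equivFun (ρ σ x) = matrixOf b ρ σ *ᵥ b.equivFun x := by
  rw [matrixOf_apply]
  exact (LinearMap.toMatrix_mulVec_repr b b (ρ σ) x).symm

/-- Every adic representation is given by its matrices. -/
lemma isEquiv_toAdic_matrixOf (ρ : GaloisRepAdic A) (b : Module.Basis (Fin 2) A ρ.V)
    (r : Γ →* M2 A) (hr : IsCont r) (h : matrixOf b ρ.ρ = r) : ρ.IsEquiv (toAdic r hr) :=
  ⟨{ toLinearEquiv := b.equivFun
     map_apply := fun σ x => by
       subst h
       exact equivFun_apply_matrixOf b ρ.ρ σ x }⟩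

/-- Conjugate matrix representations give equivalent representations. -/
lemma isEquiv_toAdic_of_conj {r r' : Γ →* M2 A} (hr : IsCont r) (hr' : IsCont r') (Q : M2 A)
    (hQ : IsUnit Q.det) (h : ∀ σ, Q * r σ = r' σ * Q) : (toAdic r hr).IsEquiv (toAdic r' hr') :=
  ⟨{ toLinearEquiv := matEquiv Q hQ
     map_apply := fun σ x => matEquiv_mulVec Q hQ (h σ) x }⟩

/-- Equivalent matrix representations are conjugate. -/
lemma exists_conj_of_isEquiv {r r' : Γ →* M2 A} {hr : IsCont r} {hr' : IsCont r'}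
    (h : (toAdic r hr).IsEquiv (toAdic r' hr')) :
    ∃ Q : M2 A, IsUnit Q.det ∧ ∀ σ, Q * r σ = r' σ * Q := by
  obtain ⟨e⟩ := h
  let f : (Fin 2 → A) ≃ₗ[A] (Fin 2 → A) := e.toLinearEquiv
  have hQ : ∀ x, LinearMap.toMatrix' f.toLinearMap *ᵥ x = f x :=
    fun x => LinearMap.congr_fun (Matrix.toLin'_toMatrix' f.toLinearMap) x
  refine ⟨LinearMap.toMatrix' f.toLinearMap, ?_, fun σ => ?_⟩
  · rw [LinearMap.det_toMatrix']
    exact LinearEquiv.isUnit_det' f
  · apply Matrix.toLin'.injective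
    refine LinearMap.ext fun x => ?_
    show (LinearMap.toMatrix' f.toLinearMap * r σ) *ᵥ x =
      (r' σ * LinearMap.toMatrix' f.toLinearMap) *ᵥ x
    rw [← Matrix.mulVec_mulVec, ← Matrix.mulVec_mulVec, hQ, hQ]
    exact e.map_apply σ x

omit [IsLocalRing A] in
lemma baseChange_toMatrix {B : Type} [CommRing B] [Algebra A B] {V : Type} [AddCommGroup V]
    [Module A V] (b : Module.Basis (Fin 2) A V) (f : Module.End A V) :
    LinearMap.toMatrix (Algebra.TensorProduct.basis B b) (Algebra.TensorProduct.basis B b)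
      (f.baseChange B) = (LinearMap.toMatrix b b f).map (algebraMap A B) :=
  LinearMap.toMatrix_baseChange B f b b

/-- Base change of a matrix representation. -/
lemma isEquiv_baseChangeAlong_toAdic {B : Type} [CommRing B] [IsLocalRing B] (φ : A →+* B)
    (hφ : IsLocalHom φ) (r : Γ →* M2 A) (hr : IsCont r) (r' : Γ →* M2 B) (hr' : IsCont r')
    (h : r' = mapRep φ r) :
    ((toAdic r hr).baseChangeAlong φ hφ).IsEquiv (toAdic r' hr') := by
  let : Algebra A B := φ.toAlgebra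
  refine isEquiv_toAdic_matrixOf _ (Algebra.TensorProduct.basis B (Pi.basisFun A (Fin 2))) _ _ ?_
  ext1 σ
  rw [h, mapRep_apply]
  show LinearMap.toMatrix (Algebra.TensorProduct.basis B (Pi.basisFun A (Fin 2)))
    (Algebra.TensorProduct.basis B (Pi.basisFun A (Fin 2)))
    (((toAdic r hr).ρ σ).baseChange B) = _
  exact (baseChange_toMatrix (Pi.basisFun A (Fin 2)) _).trans (by
    have : LinearMap.toMatrix (Pi.basisFun A (Fin 2)) (Pi.basisFun A (Fin 2)) ((toAdic r hr).ρ σ)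
        = r σ := by
      exact LinearMap.toMatrix'_toLin' (r σ)
    rw [this]; rfl)

/-- The residual representation of a matrix representation, in matrices. -/
lemma matrixOf_residual (ρ : GaloisRepAdic A) (b : Module.Basis (Fin 2) A ρ.V) :
    (LinearMap.toMatrixAlgEquiv
      (Algebra.TensorProduct.basis (IsLocalRing.ResidueField A) b)).toMonoidHom.comp
        ρ.residual.ρ = mapRep (IsLocalRing.residue A) (matrixOf b ρ.ρ) := by
  ext1 σ
  exact baseChange_toMatrix b (ρ.ρ σ)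

lemma isCont_conjRep {r : Γ →* M2 A} (hr : IsCont r) (P P' : M2 A) (h : P' * P = 1)
    (r' : Γ →* M2 A) (hr' : ∀ σ, r' σ = P' * r σ * P) : IsCont r' := by
  intro n
  obtain ⟨L, hL, hL'⟩ := hr n
  refine ⟨L, hL, fun σ hσ i j => ?_⟩
  have : r' σ - 1 = P' * (r σ - 1) * P := by rw [hr', mul_sub, sub_mul, mul_one, h]
  rw [this, Matrix.mul_apply]
  refine Ideal.sum_mem _ fun l _ => Ideal.mul_mem_right _ _ ?_
  rw [Matrix.mul_apply]
  exact Ideal.sum_mem _ fun l' _ => Ideal.mul_mem_left _ _ (hL' σ hσ l' l)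

/-- The residual representation of `toAdic`, in matrices. -/
lemma residual_toAdic_matrices (r : Γ →* M2 A) (hr : IsCont r) :
    ∃ b : Module.Basis (Fin 2) (IsLocalRing.ResidueField A) (toAdic r hr).residual.V,
      (LinearMap.toMatrixAlgEquiv b).toMonoidHom.comp (toAdic r hr).residual.ρ =
        mapRep (IsLocalRing.residue A) r := by
  refine ⟨Algebra.TensorProduct.basis (IsLocalRing.ResidueField A) (Pi.basisFun A (Fin 2)),
    (matrixOf_residual (toAdic r hr) (Pi.basisFun A (Fin 2))).trans ?_⟩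
  congr 1
  exact MonoidHom.ext fun σ => LinearMap.toMatrix'_toLin' (r σ)

end Adic

section Residual

variable {k : Type} [Field k]

/-- The matrices of a residual representation. -/
def rmat {V : Type} [AddCommGroup V] [Module k V] (b : Module.Basis (Fin 2) k V)
    (ρ : Γ →* Module.End k V) : Γ →* M2 k :=
  (LinearMap.toMatrixAlgEquiv b).toMonoidHom.comp ρ

lemma rmat_apply {V : Type} [AddCommGroup V] [Module k V] (b : Module.Basis (Fin 2) k V)
    (ρ : Γ →* Module.End k V) (σ : Γ) : rmat b ρ σ = LinearMap.toMatrix b b (ρ σ) := rfl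

lemma isEquiv_of_rmat_eq (ρ₁ ρ₂ : ResidualGaloisRep k) (b₁ : Module.Basis (Fin 2) k ρ₁.V)
    (b₂ : Module.Basis (Fin 2) k ρ₂.V) (Q : M2 k) (hQ : IsUnit Q.det)
    (h : ∀ σ, Q * rmat b₁ ρ₁.ρ σ = rmat b₂ ρ₂.ρ σ * Q) : ρ₁.IsEquiv ρ₂ := by
  refine ⟨{ toLinearEquiv := (b₁.equivFun.trans (matEquiv Q hQ)).trans b₂.equivFun.symm
            map_apply := fun σ x => ?_ }⟩
  apply b₂.equivFun.injective
  have h₁ : b₁.equivFun (ρ₁.ρ σ x) = rmat b₁ ρ₁.ρ σ *ᵥ b₁.equivFun x :=
    (LinearMap.toMatrix_mulVec_repr b₁ b₁ (ρ₁.ρ σ) x).symm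
  have h₂ : ∀ y, b₂.equivFun (ρ₂.ρ σ y) = rmat b₂ ρ₂.ρ σ *ᵥ b₂.equivFun y := fun y =>
    (LinearMap.toMatrix_mulVec_repr b₂ b₂ (ρ₂.ρ σ) y).symm
  simp only [LinearEquiv.trans_apply, LinearEquiv.apply_symm_apply, h₁, h₂]
  exact matEquiv_mulVec Q hQ (h σ) _

lemma exists_conj_rmat {ρ₁ ρ₂ : ResidualGaloisRep k} (he : ρ₁.IsEquiv ρ₂)
    (b₁ : Module.Basis (Fin 2) k ρ₁.V) (b₂ : Module.Basis (Fin 2) k ρ₂.V) :
    ∃ Q : M2 k, IsUnit Q.det ∧ ∀ σ, Q * rmat b₁ ρ₁.ρ σ = rmat b₂ ρ₂.ρ σ * Q := by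
  obtain ⟨e⟩ := he
  refine ⟨LinearMap.toMatrix b₁ b₂ e.toLinearEquiv.toLinearMap, ?_, fun σ => ?_⟩
  · exact LinearEquiv.isUnit_det e.toLinearEquiv b₁ b₂
  · rw [rmat_apply, rmat_apply, ← LinearMap.toMatrix_comp b₁ b₁ b₂,
      ← LinearMap.toMatrix_comp b₁ b₂ b₂]
    congr 1
    ext x
    exact e.map_apply σ x

lemma rmat_baseChangeAlong {k' : Type} [Field k'] (ψ : k →+* k') (ρ : ResidualGaloisRep k)
    (b : Module.Basis (Fin 2) k ρ.V) :
    ∃ b' : Module.Basis (Fin 2) k' (ρ.baseChangeAlong ψ).V,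
      rmat b' (ρ.baseChangeAlong ψ).ρ = mapRep ψ (rmat b ρ.ρ) := by
  let : Algebra k k' := ψ.toAlgebra
  refine ⟨Algebra.TensorProduct.basis k' b, ?_⟩
  ext1 σ
  exact LinearMap.toMatrix_baseChange k' (ρ.ρ σ) b b

end Residual

end FermatAgent.DefRing
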