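import Fermat.Prelude.Def_GaloisRep_DeformationCondition
import Mathlib

/-!
Finite test algebras over a complete discrete valuation ring with finite residue field,
their subalgebras, quotients and the dual numbers.
-/

set_option autoImplicit false

noncomputable section

namespace FermatAgent.DefRing

open IsLocalRing

variable {𝒪 : Type} [CommRing 𝒪] [IsLocalRing 𝒪]
variable {A : Type} [CommRing A] [IsLocalRing A] [Algebra 𝒪 A]

omit [IsLocalRing 𝒪] in
lemma testAlg_exists_lift (hres : Function.Surjective (residue A ∘ algebraMap 𝒪 A)) (a : A) :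
    ∃ o : 𝒪, a - algebraMap 𝒪 A o ∈ maximalIdeal A := by
  obtain ⟨o, ho⟩ := hres (residue A a)
  refine ⟨o, ?_⟩
  rw [← residue_eq_zero_iff, map_sub, sub_eq_zero]
  exact ho.symm

lemma finite_residueField_of_surjective [Finite (ResidueField 𝒪)] [IsLocalHom (algebraMap 𝒪 A)]
    (hres : Function.Surjective (residue A ∘ algebraMap 𝒪 A)) : Finite (ResidueField A) := by
  refine Finite.of_surjective (ResidueField.map (algebraMap 𝒪 A)) fun y => ?_
  obtain ⟨o, rfl⟩ := hres y
  exact ⟨residue 𝒪 o, rfl⟩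

lemma finite_of_isArtinianTestAlgebra [Finite (ResidueField 𝒪)]
    (hA : GaloisRep.IsArtinianTestAlgebra 𝒪 A) : Finite A := by
  have := hA.isLocalHom
  have := hA.isArtinian
  have := finite_residueField_of_surjective (A := A) hA.residue_surjective
  have h : Finite (A ⧸ (⊥ : Ideal A)) := finite_quotient_iff.2 <| by
    obtain ⟨n, hn⟩ := (isArtinianRing_iff_isNilpotent_maximalIdeal A).mp hA.isArtinian
    exact ⟨n, hn.le⟩
  exact Finite.of_equiv _ (RingEquiv.quotientBot A).toEquiv

omit [IsLocalRing 𝒪] in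
lemma exists_maximalIdeal_pow_eq_bot (hA : GaloisRep.IsArtinianTestAlgebra 𝒪 A) :
    ∃ n, maximalIdeal A ^ n = ⊥ :=
  haveI := hA.isArtinian
  (isArtinianRing_iff_isNilpotent_maximalIdeal A).mp hA.isArtinian

/-- A map out of an Artinian local ring to a nontrivial ring is local. -/
lemma isLocalHom_of_isArtinianRing {B : Type} [CommRing B] [Nontrivial B] (f : A →+* B)
    (hA : IsArtinianRing A) : IsLocalHom f := by
  refine ⟨fun a ha => ?_⟩
  by_contra h
  have h1 : a ∈ maximalIdeal A := h
  obtain ⟨n, hn⟩ := (isArtinianRing_iff_isNilpotent_maximalIdeal A).mp hA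
  have h2 : a ^ n = 0 := by
    have := Ideal.pow_mem_pow h1 n
    rwa [hn] at this
  have h3 : IsNilpotent (f a) := ⟨n, by rw [← map_pow, h2, map_zero]⟩
  exact h3.not_isUnit ha

omit [IsLocalRing 𝒪] [IsLocalRing A] in
/-- Units of a subalgebra of a finite algebra. -/
lemma subalgebra_isUnit_iff [Finite A] (S : Subalgebra 𝒪 A) (x : S) :
    IsUnit x ↔ IsUnit (x : A) := by
  refine ⟨fun h => h.map S.val, fun h => ?_⟩
  have : Finite S := Finite.of_injective _ Subtype.val_injective
  have hinj : Function.Injective (fun y : S => x * y) := by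
    intro y z hyz
    apply Subtype.ext
    exact h.mul_left_cancel (congrArg Subtype.val hyz)
  obtain ⟨y, hy⟩ := (Finite.injective_iff_surjective.1 hinj) 1
  exact IsUnit.of_mul_eq_one y hy

omit [IsLocalRing 𝒪] in
lemma subalgebra_isLocalRing [Finite A] (S : Subalgebra 𝒪 A) : IsLocalRing S := by
  have : Nontrivial S :=
    ⟨⟨0, 1, fun h => zero_ne_one (α := A) (congrArg Subtype.val h)⟩⟩
  refine IsLocalRing.of_isUnit_or_isUnit_one_sub_self fun x => ?_
  rw [subalgebra_isUnit_iff, subalgebra_isUnit_iff]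
  exact IsLocalRing.isUnit_or_isUnit_one_sub_self (x : A)

lemma isTestAlgebra_subalgebra [Finite (ResidueField 𝒪)]
    (hA : GaloisRep.IsArtinianTestAlgebra 𝒪 A) (S : Subalgebra 𝒪 A) [IsLocalRing S] :
    GaloisRep.IsArtinianTestAlgebra 𝒪 S := by
  have := finite_of_isArtinianTestAlgebra hA
  have : Finite S := Finite.of_injective _ Subtype.val_injective
  refine ⟨⟨fun o ho => ?_⟩, fun y => ?_, inferInstance⟩
  · have := hA.isLocalHom
    exact IsUnit.of_map (algebraMap 𝒪 A) o (ho.map S.val)
  · obtain ⟨x, rfl⟩ := residue_surjective y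
    obtain ⟨o, ho⟩ := testAlg_exists_lift hA.residue_surjective (x : A)
    refine ⟨o, ?_⟩
    show residue S (algebraMap 𝒪 S o) = residue S x
    rw [eq_comm, ← sub_eq_zero, ← map_sub, residue_eq_zero_iff]
    show ¬ IsUnit _
    rw [subalgebra_isUnit_iff]
    exact ho

omit [IsLocalRing 𝒪] in
/-- A nontrivial quotient of a test algebra is a test algebra. -/
lemma isTestAlgebra_of_surjective {B : Type} [CommRing B] [IsLocalRing B] [Algebra 𝒪 B]
    (hA : GaloisRep.IsArtinianTestAlgebra 𝒪 A) (f : A →ₐ[𝒪] B) (hf : Function.Surjective f) :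
    GaloisRep.IsArtinianTestAlgebra 𝒪 B := by
  have := hA.isArtinian
  have hloc : IsLocalHom (f : A →+* B) := IsLocalHom.of_surjective (f : A →+* B) hf
  refine ⟨⟨fun o ho => ?_⟩, fun y => ?_, Function.Surjective.isArtinianRing (f := (f : A →+* B)) hf⟩
  · have := hA.isLocalHom
    rw [← f.commutes] at ho
    exact IsUnit.of_map (algebraMap 𝒪 A) o (IsUnit.of_map (f : A →+* B) _ ho)
  · obtain ⟨b, rfl⟩ := residue_surjective y
    obtain ⟨a, rfl⟩ := hf b
    obtain ⟨o, ho⟩ := testAlg_exists_lift hA.residue_surjective a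
    refine ⟨o, ?_⟩
    show residue B (algebraMap 𝒪 B o) = residue B (f a)
    rw [eq_comm, ← sub_eq_zero, ← map_sub, residue_eq_zero_iff, ← f.commutes, ← map_sub]
    exact map_nonunit (f : A →+* B) _ ho

omit [IsLocalRing 𝒪] in
/-- The residue field as a test algebra. -/
lemma isTestAlgebra_residueField (hA : GaloisRep.IsArtinianTestAlgebra 𝒪 A) :
    GaloisRep.IsArtinianTestAlgebra 𝒪 (ResidueField A) :=
  isTestAlgebra_of_surjective hA (IsScalarTower.toAlgHom 𝒪 A (ResidueField A))
    residue_surjective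

/-- The quotient of a complete test ring by a power of its maximal ideal. -/
lemma isTestAlgebra_quotient_pow [IsNoetherianRing A] [IsLocalHom (algebraMap 𝒪 A)]
    [Finite (ResidueField 𝒪)]
    (hres : Function.Surjective (residue A ∘ algebraMap 𝒪 A)) (I : Ideal A)
    [IsLocalRing (A ⧸ I)] (n : ℕ) (hn : maximalIdeal A ^ n ≤ I) :
    GaloisRep.IsArtinianTestAlgebra 𝒪 (A ⧸ I) := by
  have := finite_residueField_of_surjective (A := A) hres
  have : Finite (A ⧸ I) := finite_quotient_iff.2 ⟨n, hn⟩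
  refine ⟨⟨fun o ho => ?_⟩, fun y => ?_, inferInstance⟩
  · rw [← Ideal.Quotient.mk_algebraMap] at ho
    exact IsUnit.of_map (algebraMap 𝒪 A) o
      ((IsLocalHom.of_surjective _ Ideal.Quotient.mk_surjective).map_nonunit _ ho)
  · obtain ⟨b, rfl⟩ := residue_surjective y
    obtain ⟨a, rfl⟩ := Ideal.Quotient.mk_surjective b
    obtain ⟨o, ho⟩ := testAlg_exists_lift hres a
    refine ⟨o, ?_⟩
    have := IsLocalHom.of_surjective (Ideal.Quotient.mk I) Ideal.Quotient.mk_surjective
    show residue _ (algebraMap 𝒪 (A ⧸ I) o) = residue _ (Ideal.Quotient.mk I a)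
    rw [eq_comm, ← sub_eq_zero, ← map_sub, residue_eq_zero_iff, ← Ideal.Quotient.mk_algebraMap,
      ← map_sub]
    exact map_nonunit (Ideal.Quotient.mk I) _ ho

lemma quotient_isLocalRing (I : Ideal A) (hI : I ≠ ⊤) : IsLocalRing (A ⧸ I) :=
  have : Nontrivial (A ⧸ I) := Ideal.Quotient.nontrivial_iff.mpr hI
  IsLocalRing.of_surjective' (Ideal.Quotient.mk I) Ideal.Quotient.mk_surjective

end FermatAgent.DefRing
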