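import Fermat.Agent.DefRing.MatrixRep
import Fermat.Agent.DefRing.TestAlgebra

/-!
Normalised lifts of a residual matrix representation: existence (via Hensel) and uniqueness of the
normal form in a conjugacy class.
-/

set_option autoImplicit false

noncomputable section

namespace FermatAgent.DefRing

open IsLocalRing Matrix

/-- A residual matrix representation, lifted entrywise to `𝒪`, with two linear combinations of
its values reducing to the matrix units `e₁₁` and `e₁₂`. -/
structure Frame (𝒪 : Type) [CommRing 𝒪] [IsLocalRing 𝒪] where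
  /-- entrywise lifts of the residual matrices -/
  bt : Γ → M2 𝒪
  /-- number of chosen group elements -/
  num : ℕ
  /-- the chosen group elements -/
  pts : Fin num → Γ
  /-- coefficients of `e₁₁` -/
  ca : Fin num → 𝒪
  /-- coefficients of `e₁₂` -/
  cb : Fin num → 𝒪
  ha : (∑ s, ca s • bt (pts s)).map (residue 𝒪) = !![1, 0; 0, 0]
  hb : (∑ s, cb s • bt (pts s)).map (residue 𝒪) = !![0, 1; 0, 0]

variable {𝒪 : Type} [CommRing 𝒪] [IsLocalRing 𝒪] (F : Frame 𝒪)

section

variable {A : Type} [CommRing A] [Algebra 𝒪 A]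

/-- A linear combination of the values of a representation at the chosen elements. -/
def comb (c : Fin F.num → 𝒪) (r : Γ →* M2 A) : M2 A :=
  ∑ s, algebraMap 𝒪 A (c s) • r (F.pts s)

lemma comb_map {B : Type} [CommRing B] [Algebra 𝒪 B] (f : A →ₐ[𝒪] B) (c : Fin F.num → 𝒪)
    (r : Γ →* M2 A) : comb F c (mapRep (f : A →+* B) r) = (comb F c r).map f := by
  ext i j
  simp [comb, Matrix.sum_apply, map_sum]

/-- The conjugate representation `σ ↦ P' * r σ * P`. -/
def conjRep (P P' : M2 A) (h : P * P' = 1) (h' : P' * P = 1) (r : Γ →* M2 A) : Γ →* M2 A where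
  toFun σ := P' * r σ * P
  map_one' := by rw [map_one, mul_one, h']
  map_mul' σ τ := by
    rw [map_mul]
    calc P' * (r σ * r τ) * P = P' * r σ * (1 : M2 A) * r τ * P := by
          simp only [mul_one, mul_assoc]
      _ = P' * r σ * (P * P') * r τ * P := by rw [h]
      _ = P' * r σ * P * (P' * r τ * P) := by simp only [mul_assoc]

lemma comb_conjRep (P P' : M2 A) (h : P * P' = 1) (h' : P' * P = 1) (c : Fin F.num → 𝒪)
    (r : Γ →* M2 A) : comb F c (conjRep P P' h h' r) = P' * comb F c r * P := by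
  simp [comb, conjRep, Finset.mul_sum, Finset.sum_mul]

lemma comb_conj (Q : M2 A) (r r' : Γ →* M2 A) (h : ∀ σ, Q * r σ = r' σ * Q)
    (c : Fin F.num → 𝒪) : Q * comb F c r = comb F c r' * Q := by
  simp [comb, Finset.mul_sum, Finset.sum_mul, h]

end

variable {A : Type} [CommRing A] [IsLocalRing A] [Algebra 𝒪 A]

/-- The representation reduces to the residual one. -/
def IsResidual (r : Γ →* M2 A) : Prop :=
  ∀ σ i j, r σ i j - algebraMap 𝒪 A (F.bt σ i j) ∈ maximalIdeal A

/-- Normalised lifts: continuous, residually `ρbar`, with the two combinations in normal form. -/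
structure IsNorm (r : Γ →* M2 A) : Prop where
  cont : IsCont r
  res : IsResidual F r
  upper : comb F F.ca r 0 1 = 0
  lower : comb F F.ca r 1 0 = 0
  one : comb F F.cb r 0 1 = 1

lemma isResidual_iff (r : Γ →* M2 A) :
    IsResidual F r ↔
      ∀ σ, (r σ).map (residue A) = ((F.bt σ).map (algebraMap 𝒪 A)).map (residue A) := by
  refine forall_congr' fun σ => ⟨fun h => ?_, fun h i j => ?_⟩
  · ext i j
    simp only [Matrix.map_apply]
    rw [← sub_eq_zero, ← map_sub, residue_eq_zero_iff]
    exact h i j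
  · rw [← residue_eq_zero_iff, map_sub, sub_eq_zero]
    exact congrFun (congrFun h i) j

variable [IsLocalHom (algebraMap 𝒪 A)]

lemma map_residue_comb {r : Γ →* M2 A} (hr : IsResidual F r) (c : Fin F.num → 𝒪) :
    (comb F c r).map (residue A) =
      ((∑ s, c s • F.bt (F.pts s)).map (residue 𝒪)).map (ResidueField.map (algebraMap 𝒪 A)) := by
  ext i j
  simp only [comb, Matrix.map_apply, Matrix.sum_apply, Matrix.smul_apply, smul_eq_mul, map_sum,
    map_mul, ResidueField.map_residue]
  refine Finset.sum_congr rfl fun s _ => ?_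
  congr 1
  rw [← sub_eq_zero, ← map_sub, residue_eq_zero_iff]
  exact hr _ i j

lemma residue_comb_ca {r : Γ →* M2 A} (hr : IsResidual F r) :
    (comb F F.ca r).map (residue A) = !![1, 0; 0, 0] := by
  rw [map_residue_comb F hr, F.ha]
  ext i j; fin_cases i <;> fin_cases j <;> simp

lemma residue_comb_cb {r : Γ →* M2 A} (hr : IsResidual F r) :
    (comb F F.cb r).map (residue A) = !![0, 1; 0, 0] := by
  rw [map_residue_comb F hr, F.hb]
  ext i j; fin_cases i <;> fin_cases j <;> simp

omit [IsLocalHom (algebraMap 𝒪 A)] in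
lemma exists_diag [HenselianRing A (maximalIdeal A)] (x : M2 A)
    (hx : x.map (residue A) = !![1, 0; 0, 0]) :
    ∃ P : M2 A, ∃ lam mu : A, P.map (residue A) = 1 ∧ x * P = P * !![lam, 0; 0, mu] := by
  have e : ∀ i j, residue A (x i j) = (!![1, 0; 0, 0] : M2 (ResidueField A)) i j :=
    fun i j => congrFun (congrFun hx i) j
  set f : Polynomial A := Polynomial.X ^ 2 + (Polynomial.C (-(x 0 0 + x 1 1)) * Polynomial.X +
    Polynomial.C (x 0 0 * x 1 1 - x 0 1 * x 1 0)) with hf
  have hmonic : f.Monic :=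
    Polynomial.monic_X_pow_add (Polynomial.degree_linear_le.trans_lt (by norm_num))
  obtain ⟨lam, hlam, hlam1⟩ := HenselianRing.is_henselian (I := maximalIdeal A) f hmonic 1
    (by
      rw [← residue_eq_zero_iff]
      simp [hf, e])
    (by
      have : residue A (f.derivative.eval 1) = 1 := by simp [hf, e]; try norm_num
      show IsUnit (residue A (f.derivative.eval 1))
      rw [this]; exact isUnit_one)
  have hroot : lam ^ 2 - (x 0 0 + x 1 1) * lam + (x 0 0 * x 1 1 - x 0 1 * x 1 0) = 0 := by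
    have := hlam
    simp [hf, Polynomial.IsRoot] at this
    linear_combination this
  have elam : residue A lam = 1 := by
    rw [← sub_eq_zero, ← map_one (residue A), ← map_sub, residue_eq_zero_iff]; exact hlam1
  refine ⟨!![x 0 0 - (x 0 0 + x 1 1 - lam), -(x 0 1); x 1 0, lam - x 1 1], lam,
    x 0 0 + x 1 1 - lam, ?_, ?_⟩
  · ext i j; fin_cases i <;> fin_cases j <;> simp [e, elam]
  · ext i j
    fin_cases i <;> fin_cases j <;> simp [Matrix.mul_apply, Fin.sum_univ_two]
    · linear_combination -hroot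
    · ring
    · ring
    · linear_combination hroot

/-- Conjugation by a matrix congruent to `1` into normal form. -/
lemma exists_isNorm [HenselianRing A (maximalIdeal A)] {r : Γ →* M2 A} (hc : IsCont r)
    (hr : IsResidual F r) :
    ∃ r' : Γ →* M2 A, ∃ h : IsNorm F r', (toAdic r hc).IsEquiv (toAdic r' h.cont) := by
  obtain ⟨P₀, lam, mu, hP₀, hdiag⟩ := exists_diag _ (residue_comb_ca F hr)
  have eP : ∀ i j, residue A (P₀ i j) = (1 : M2 (ResidueField A)) i j :=
    fun i j => congrFun (congrFun hP₀ i) j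
  have hdet₀ : IsUnit P₀.det := by
    refine IsUnit.of_map (residue A) _ ?_
    rw [RingHom.map_det]
    show IsUnit (P₀.map (residue A)).det
    rw [hP₀, Matrix.det_one]; exact isUnit_one
  set u : A := (P₀⁻¹ * comb F F.cb r * P₀) 0 1 with hu
  have hinv : P₀⁻¹.map (residue A) = 1 := by
    have h1 := congrArg (fun M : M2 A => M.map (residue A)) (Matrix.nonsing_inv_mul P₀ hdet₀)
    simpa [Matrix.map_mul, hP₀] using h1
  have eu : residue A u = 1 := by
    have : (P₀⁻¹ * comb F F.cb r * P₀).map (residue A) = !![0, 1; 0, 0] := by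
      rw [Matrix.map_mul, Matrix.map_mul, hinv, hP₀, residue_comb_cb F hr, one_mul, mul_one]
    exact congrFun (congrFun this 0) 1
  have huu : IsUnit u := IsUnit.of_map (residue A) _ (by rw [eu]; exact isUnit_one)
  obtain ⟨v, hv⟩ := huu
  have ev : residue A (↑v⁻¹ : A) = 1 := by
    have : residue A ((↑v⁻¹ : A) * v) = 1 := by rw [Units.inv_mul, map_one]
    rwa [map_mul, hv, eu, mul_one] at this
  set D : M2 A := !![(v : A), 0; 0, 1]
  set D' : M2 A := !![(↑v⁻¹ : A), 0; 0, 1]
  have hD : D * D' = 1 := by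
    ext i j; fin_cases i <;> fin_cases j <;> simp [D, D']
  have hD' : D' * D = 1 := by
    ext i j; fin_cases i <;> fin_cases j <;> simp [D, D']
  have h1 : (P₀ * D) * (D' * P₀⁻¹) = 1 := by
    rw [mul_assoc, ← mul_assoc D, hD, one_mul, Matrix.mul_nonsing_inv _ hdet₀]
  have h2 : (D' * P₀⁻¹) * (P₀ * D) = 1 := by
    rw [mul_assoc, ← mul_assoc P₀⁻¹, Matrix.nonsing_inv_mul _ hdet₀, one_mul, hD']
  set r' := conjRep (P₀ * D) (D' * P₀⁻¹) h1 h2 r with hr'
  have hcont : IsCont r' := by
    intro n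
    obtain ⟨L, hL, h⟩ := hc n
    refine ⟨L, hL, fun σ hσ i j => ?_⟩
    have : r' σ - 1 = (D' * P₀⁻¹) * (r σ - 1) * (P₀ * D) := by
      rw [mul_sub, sub_mul, mul_one, h2]; rfl
    rw [this, Matrix.mul_apply]
    refine Ideal.sum_mem _ fun l _ => Ideal.mul_mem_right _ _ ?_
    rw [Matrix.mul_apply]
    exact Ideal.sum_mem _ fun l' _ => Ideal.mul_mem_left _ _ (h σ hσ l' l)
  have hres : IsResidual F r' := by
    rw [isResidual_iff] at hr ⊢
    intro σ
    rw [← hr σ]
    show ((D' * P₀⁻¹) * r σ * (P₀ * D)).map (residue A) = _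
    have eD : D.map (residue A) = 1 := by
      ext i j; fin_cases i <;> fin_cases j <;> simp [D, hv, eu]
    have eD' : D'.map (residue A) = 1 := by
      ext i j; fin_cases i <;> fin_cases j <;> simp [D', ev]
    simp [Matrix.map_mul, hP₀, hinv, eD, eD']
  have hcomb : ∀ c, comb F c r' = D' * (P₀⁻¹ * comb F c r * P₀) * D := fun c => by
    rw [hr', comb_conjRep]; simp only [mul_assoc]
  have hca : P₀⁻¹ * comb F F.ca r * P₀ = !![lam, 0; 0, mu] := by
    rw [mul_assoc, hdiag, ← mul_assoc, Matrix.nonsing_inv_mul _ hdet₀, one_mul]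
  refine ⟨r', ⟨hcont, hres, ?_, ?_, ?_⟩, ?_⟩
  · rw [hcomb, hca]; simp [D, D', Matrix.mul_apply, Fin.sum_univ_two]
  · rw [hcomb, hca]; simp [D, D', Matrix.mul_apply, Fin.sum_univ_two]
  · rw [hcomb]
    generalize hM : P₀⁻¹ * comb F F.cb r * P₀ = M at hu
    simp [D, D', Matrix.mul_apply, Matrix.vecMul, dotProduct, Fin.sum_univ_two]
    rw [← hu, ← hv]
  · refine isEquiv_toAdic_of_conj hc hcont (D' * P₀⁻¹) ?_ fun σ => ?_
    · exact IsUnit.of_mul_eq_one (P₀ * D).det (by rw [← Matrix.det_mul, h2, Matrix.det_one])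
    · show _ = (D' * P₀⁻¹) * r σ * (P₀ * D) * (D' * P₀⁻¹)
      rw [mul_assoc _ (P₀ * D), h1, mul_one]

/-- The normal form is unique in its conjugacy class. -/
lemma IsNorm.eq_of_conj {r r' : Γ →* M2 A} (h : IsNorm F r) (h' : IsNorm F r') (Q : M2 A)
    (hQ : IsUnit Q.det) (hc : ∀ σ, Q * r σ = r' σ * Q) : r = r' := by
  have ea : ∀ {s : Γ →* M2 A}, IsNorm F s → residue A (comb F F.ca s 0 0) = 1 ∧
      residue A (comb F F.ca s 1 1) = 0 := fun hs =>
    ⟨congrFun (congrFun (residue_comb_ca F hs.res) 0) 0,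
      congrFun (congrFun (residue_comb_ca F hs.res) 1) 1⟩
  have hd : ∀ {s t : Γ →* M2 A}, IsNorm F s → IsNorm F t →
      IsUnit (comb F F.ca s 0 0 - comb F F.ca t 1 1) := fun hs ht => by
    refine IsUnit.of_map (residue A) _ ?_
    rw [map_sub, (ea hs).1, (ea ht).2, sub_zero]; exact isUnit_one
  have hA := comb_conj F Q r r' hc F.ca
  have e01 := congrFun (congrFun hA 0) 1
  have e10 := congrFun (congrFun hA 1) 0
  simp [Matrix.mul_apply, Fin.sum_univ_two, h.upper, h.lower, h'.upper, h'.lower] at e01 e10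
  have q01 : Q 0 1 = 0 := (hd h' h).mul_right_eq_zero.1 (by linear_combination -e01)
  have q10 : Q 1 0 = 0 := (hd h h').mul_right_eq_zero.1 (by linear_combination e10)
  have e := congrFun (congrFun (comb_conj F Q r r' hc F.cb) 0) 1
  simp [Matrix.mul_apply, Fin.sum_univ_two, h.one, h'.one, q01] at e
  have hQ' : Q = Q 1 1 • (1 : M2 A) := by
    ext i j; fin_cases i <;> fin_cases j <;> simp [q01, q10, e]
  have hu : IsUnit (Q 1 1) := by
    rw [hQ', Matrix.det_smul, Matrix.det_one, mul_one] at hQ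
    exact (isUnit_pow_iff (by simp)).1 hQ
  refine MonoidHom.ext fun σ => ?_
  have := hc σ
  rw [hQ', smul_mul_assoc, one_mul, mul_smul_comm, mul_one] at this
  exact hu.smul_left_cancel.1 this

lemma IsNorm.eq_of_isEquiv {r r' : Γ →* M2 A} (h : IsNorm F r) (h' : IsNorm F r')
    (e : (toAdic r h.cont).IsEquiv (toAdic r' h'.cont)) : r = r' := by
  obtain ⟨Q, hQ, hc⟩ := exists_conj_of_isEquiv e
  exact h.eq_of_conj F h' Q hQ hc

omit [IsLocalHom (algebraMap 𝒪 A)] in
/-- Normalised lifts map to normalised lifts. -/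
lemma IsNorm.map {B : Type} [CommRing B] [IsLocalRing B] [Algebra 𝒪 B] (f : A →ₐ[𝒪] B)
    (hf : IsLocalHom (f : A →+* B)) {r : Γ →* M2 A} (h : IsNorm F r) :
    IsNorm F (mapRep (f : A →+* B) r) := by
  refine ⟨isCont_map _ hf h.cont, fun σ i j => ?_, ?_, ?_, ?_⟩
  · have := hf.map_nonunit
    rw [mapRep_apply, Matrix.map_apply, RingHom.coe_coe, ← f.commutes, ← map_sub]
    exact fun hu => h.res σ i j (hf.map_nonunit _ hu)
  · rw [comb_map, Matrix.map_apply, h.upper, map_zero]
  · rw [comb_map, Matrix.map_apply, h.lower, map_zero]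
  · rw [comb_map, Matrix.map_apply, h.one, map_one]

end FermatAgent.DefRing
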