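import Fermat.Agent.DefRing.TestAlgebra
import Fermat.Prelude.Thm_IsAdicComplete_of_module_finite

/-!
Power series rings in finitely many variables over a complete local ring: completeness for the
maximal ideal and evaluation in complete local algebras.
-/

set_option autoImplicit false

noncomputable section

namespace FermatAgent.DefRing

open IsLocalRing MvPowerSeries

variable {ι : Type} [Finite ι] {𝒪 : Type} [CommRing 𝒪] [IsLocalRing 𝒪]

/-- The ideal of the variables. -/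
abbrev varIdeal (ι 𝒪 : Type) [CommRing 𝒪] : Ideal (MvPowerSeries ι 𝒪) :=
  Ideal.span (Set.range MvPowerSeries.X)

omit [Finite ι] [IsLocalRing 𝒪] in
lemma algebraMap_mvPolynomial (q : MvPolynomial ι 𝒪) :
    algebraMap (MvPolynomial ι 𝒪) (MvPowerSeries ι 𝒪) q = (q : MvPowerSeries ι 𝒪) := by
  rw [MvPowerSeries.algebraMap_apply', Algebra.algebraMap_self, MvPowerSeries.map_id]
  rfl

omit [Finite ι] [IsLocalRing 𝒪] in
lemma map_idealOfVars : (MvPolynomial.idealOfVars ι 𝒪).map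
    (algebraMap (MvPolynomial ι 𝒪) (MvPowerSeries ι 𝒪)) = varIdeal ι 𝒪 := by
  rw [MvPolynomial.idealOfVars, varIdeal, Ideal.map_span, ← Set.range_comp]
  congr 2
  ext1 x
  simp [algebraMap_mvPolynomial]

omit [IsLocalRing 𝒪] in
lemma sub_truncTotal_mem (p : MvPowerSeries ι 𝒪) (n : ℕ) :
    p - (truncTotal n p : MvPolynomial ι 𝒪) ∈ varIdeal ι 𝒪 ^ n := by
  let e := toAdicCompletionAlgEquiv ι 𝒪
  set d := p - (truncTotal n p : MvPolynomial ι 𝒪)
  have h1 : e d ∈ MvPolynomial.idealOfVars ι 𝒪 ^ n • (⊤ : Submodule (MvPolynomial ι 𝒪) _) := by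
    rw [AdicCompletion.pow_smul_top_eq_ker_eval (MvPolynomial.idealOfVars_fg ι 𝒪),
      LinearMap.mem_ker, map_sub, map_sub, sub_eq_zero]
    show (toAdicCompletion ι 𝒪 p).val n = (toAdicCompletion ι 𝒪 _).val n
    rw [toAdicCompletion_coe, toAdicCompletion_apply_eq_mk_truncTotal]
    rfl
  have h2 := Submodule.mem_map_of_mem (f := e.symm.toLinearMap) h1
  rw [Submodule.map_smul''] at h2
  have h3 : d ∈ MvPolynomial.idealOfVars ι 𝒪 ^ n •
      (⊤ : Submodule (MvPolynomial ι 𝒪) (MvPowerSeries ι 𝒪)) := by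
    have h4 : e.symm.toLinearMap (e d) = d := e.symm_apply_apply d
    rw [h4] at h2
    exact Submodule.smul_mono le_rfl le_top h2
  rwa [Ideal.smul_top_eq_map, Submodule.restrictScalars_mem, Ideal.map_pow, map_idealOfVars] at h3

omit [IsLocalRing 𝒪] in
lemma sub_C_constantCoeff_mem (p : MvPowerSeries ι 𝒪) :
    p - algebraMap 𝒪 _ (constantCoeff p) ∈ varIdeal ι 𝒪 := by
  have h1 := sub_truncTotal_mem p 1
  rw [pow_one] at h1
  classical
  have h2 : truncTotal 1 p - MvPolynomial.C (constantCoeff p) ∈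
      MvPolynomial.idealOfVars ι 𝒪 ^ 1 := by
    refine (MvPolynomial.mem_pow_idealOfVars_iff' ..).2 fun x hx => ?_
    have hx0 : x = 0 := (Finsupp.degree_eq_zero_iff x).1 (by omega)
    subst hx0
    rw [MvPolynomial.coeff_sub, coeff_truncTotal _ hx, MvPolynomial.coeff_C, if_pos rfl,
      coeff_zero_eq_constantCoeff_apply, sub_self]
  rw [pow_one] at h2
  have h3 := Ideal.mem_map_of_mem (algebraMap (MvPolynomial ι 𝒪) (MvPowerSeries ι 𝒪)) h2
  rw [map_idealOfVars, map_sub, algebraMap_mvPolynomial, algebraMap_mvPolynomial,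
    MvPolynomial.coe_C] at h3
  have := Ideal.add_mem _ h1 h3
  rw [MvPowerSeries.algebraMap_apply]
  simpa using this

omit [Finite ι] in
lemma mem_maximalIdeal_iff (p : MvPowerSeries ι 𝒪) :
    p ∈ maximalIdeal (MvPowerSeries ι 𝒪) ↔ constantCoeff p ∈ maximalIdeal 𝒪 := by
  rw [IsLocalRing.mem_maximalIdeal, IsLocalRing.mem_maximalIdeal, mem_nonunits_iff,
    mem_nonunits_iff, isUnit_iff_constantCoeff]

omit [Finite ι] in
lemma varIdeal_le : varIdeal ι 𝒪 ≤ maximalIdeal (MvPowerSeries ι 𝒪) := by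
  rw [varIdeal, Ideal.span_le]
  rintro _ ⟨x, rfl⟩
  rw [SetLike.mem_coe, mem_maximalIdeal_iff, constantCoeff_X]
  exact zero_mem _

lemma maximalIdeal_eq : maximalIdeal (MvPowerSeries ι 𝒪) =
    (maximalIdeal 𝒪).map (algebraMap 𝒪 _) ⊔ varIdeal ι 𝒪 := by
  refine le_antisymm (fun p hp => ?_) (sup_le ?_ varIdeal_le)
  · rw [mem_maximalIdeal_iff] at hp
    rw [← add_sub_cancel (algebraMap 𝒪 (MvPowerSeries ι 𝒪) (constantCoeff p)) p]
    exact Submodule.add_mem_sup (Ideal.mem_map_of_mem _ hp) (sub_C_constantCoeff_mem p)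
  · rw [Ideal.map_le_iff_le_comap]
    intro o ho
    rw [Ideal.mem_comap, mem_maximalIdeal_iff, MvPowerSeries.algebraMap_apply]
    simpa using ho

omit [IsLocalRing 𝒪] in
omit [Finite ι] in
lemma isLocalHom_algebraMap : IsLocalHom (algebraMap 𝒪 (MvPowerSeries ι 𝒪)) :=
  ⟨fun o ho => by
    rw [isUnit_iff_constantCoeff, MvPowerSeries.algebraMap_apply] at ho
    simpa using ho⟩

lemma residue_comp_algebraMap_surjective :
    Function.Surjective
      (residue (MvPowerSeries ι 𝒪) ∘ algebraMap 𝒪 (MvPowerSeries ι 𝒪)) := by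
  intro y
  obtain ⟨p, rfl⟩ := residue_surjective y
  refine ⟨constantCoeff p, ?_⟩
  show residue _ _ = residue _ p
  rw [eq_comm, ← sub_eq_zero, ← map_sub, residue_eq_zero_iff]
  exact varIdeal_le (sub_C_constantCoeff_mem p)

omit [IsLocalRing 𝒪] in
lemma finite_quotient_varIdeal (n : ℕ) :
    Module.Finite 𝒪 (MvPowerSeries ι 𝒪 ⧸ varIdeal ι 𝒪 ^ n) := by
  set Q := MvPowerSeries ι 𝒪 ⧸ varIdeal ι 𝒪 ^ n
  let g : MvPolynomial ι 𝒪 →ₐ[𝒪] Q :=
    MvPolynomial.aeval fun x => Ideal.Quotient.mk _ (MvPowerSeries.X x)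
  have hg : g = (Ideal.Quotient.mkₐ 𝒪 (varIdeal ι 𝒪 ^ n)).comp
      (IsScalarTower.toAlgHom 𝒪 (MvPolynomial ι 𝒪) (MvPowerSeries ι 𝒪)) :=
    MvPolynomial.algHom_ext fun x => by simp [g, algebraMap_mvPolynomial]
  have hsurj : g.range = ⊤ := by
    rw [eq_top_iff]
    intro y _
    obtain ⟨p, rfl⟩ := Ideal.Quotient.mk_surjective y
    refine ⟨truncTotal n p, ?_⟩
    show g _ = _
    rw [hg]
    simp only [AlgHom.comp_apply, IsScalarTower.toAlgHom_apply, Ideal.Quotient.mkₐ_eq_mk,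
      algebraMap_mvPolynomial]
    rw [eq_comm, Ideal.Quotient.mk_eq_mk_iff_sub_mem]
    exact sub_truncTotal_mem p n
  constructor
  have hfin := fg_adjoin_of_finite (R := 𝒪)
    (s := Set.range fun x => Ideal.Quotient.mk (varIdeal ι 𝒪 ^ n) (MvPowerSeries.X x))
    (Set.finite_range _) ?_
  · rw [Algebra.adjoin_range_eq_range_aeval, hsurj, Algebra.top_toSubmodule] at hfin
    exact hfin
  · rintro _ ⟨x, rfl⟩
    refine IsIntegral.of_pow (n := n + 1) (by omega) ?_
    have : Ideal.Quotient.mk (varIdeal ι 𝒪 ^ n) (MvPowerSeries.X x) ^ (n + 1) = 0 := by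
      rw [← map_pow, Ideal.Quotient.eq_zero_iff_mem]
      exact Ideal.pow_le_pow_right (Nat.le_succ n)
        (Ideal.pow_mem_pow (Ideal.subset_span (Set.mem_range_self x)) _)
    rw [this]
    exact isIntegral_zero

section Complete

variable [IsNoetherianRing 𝒪] [IsAdicComplete (maximalIdeal 𝒪) 𝒪]

omit [Finite ι] [IsLocalRing 𝒪] [IsNoetherianRing 𝒪] in
lemma mk_mem_smul_top_iff (I : Ideal 𝒪) (J : Ideal (MvPowerSeries ι 𝒪)) (x : MvPowerSeries ι 𝒪) :
    Ideal.Quotient.mk J x ∈ (I • ⊤ : Submodule 𝒪 (MvPowerSeries ι 𝒪 ⧸ J)) ↔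
      x ∈ I.map (algebraMap 𝒪 _) ⊔ J := by
  rw [Ideal.smul_top_eq_map, Submodule.restrictScalars_mem,
    show algebraMap 𝒪 (MvPowerSeries ι 𝒪 ⧸ J) =
      (Ideal.Quotient.mk J).comp (algebraMap 𝒪 _) from rfl,
    ← Ideal.map_map, ← Ideal.mem_comap,
    Ideal.comap_map_of_surjective' _ Ideal.Quotient.mk_surjective, Ideal.mk_ker]

/-- Power series over a complete Noetherian local ring are complete for the maximal ideal. -/
theorem isAdicComplete_mvPowerSeries :
    IsAdicComplete (maximalIdeal (MvPowerSeries ι 𝒪)) (MvPowerSeries ι 𝒪) := by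
  have : IsPrecomplete (maximalIdeal (MvPowerSeries ι 𝒪)) (MvPowerSeries ι 𝒪) := by
    set V := varIdeal ι 𝒪
    set m := maximalIdeal (MvPowerSeries ι 𝒪)
    set a := (maximalIdeal 𝒪).map (algebraMap 𝒪 (MvPowerSeries ι 𝒪))
    have ham : ∀ i, a ^ i ≤ m ^ i := fun i =>
      Ideal.pow_right_mono (le_sup_left.trans maximalIdeal_eq.ge) i
    have hVm : ∀ i, V ^ i ≤ m ^ i := fun i => Ideal.pow_right_mono varIdeal_le i
    have hpow : ∀ i n, m ^ (i + n) ≤ a ^ i ⊔ V ^ n := fun i n => by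
      rw [show m = a ⊔ V from maximalIdeal_eq]
      exact Ideal.sup_pow_add_le_pow_sup_pow
    have hQ : ∀ n, IsAdicComplete (maximalIdeal 𝒪) (MvPowerSeries ι 𝒪 ⧸ V ^ n) := fun n => by
      have := finite_quotient_varIdeal (ι := ι) (𝒪 := 𝒪) n
      exact IsAdicComplete.of_module_finite _ _
    refine ⟨fun f hf => ?_⟩
    have hf' : ∀ {i j}, i ≤ j → f i - f j ∈ m ^ i := fun {i j} hij => by
      simpa [SModEq.sub_mem] using hf hij
    have hex : ∀ n, ∃ x, ∀ i, x - f (i + n) ∈ a ^ i ⊔ V ^ n := fun n => by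
      have := hQ n
      obtain ⟨l, hl⟩ := IsPrecomplete.prec (I := maximalIdeal 𝒪) inferInstance
        (f := fun i => Ideal.Quotient.mk (V ^ n) (f (i + n))) fun {i j} hij => by
          rw [SModEq.sub_mem, ← map_sub, mk_mem_smul_top_iff, Ideal.map_pow]
          exact hpow i n (hf' (by omega))
      obtain ⟨x, rfl⟩ := Ideal.Quotient.mk_surjective l
      refine ⟨x, fun i => ?_⟩
      have := hl i
      rw [SModEq.sub_mem, ← map_sub, mk_mem_smul_top_iff, Ideal.map_pow] at this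
      have h2 := Submodule.neg_mem _ this
      rwa [neg_sub] at h2
    choose x hx using hex
    have hcomp : ∀ n k, n ≤ k → x n - x k ∈ V ^ n := fun n k hnk => by
      have := hQ n
      rw [← Ideal.Quotient.eq_zero_iff_mem]
      refine IsHausdorff.haus (I := maximalIdeal 𝒪) inferInstance _ fun i => ?_
      rw [SModEq.zero, mk_mem_smul_top_iff, Ideal.map_pow]
      have h1 := hx n i
      have hkn : a ^ i ⊔ V ^ k ≤ a ^ i ⊔ V ^ n :=
        sup_le le_sup_left (le_sup_of_le_right (Ideal.pow_le_pow_right hnk))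
      have h2 : x k - f (i + k) ∈ a ^ i ⊔ V ^ n := hkn (hx k i)
      have h3 : f (i + n) - f (i + k) ∈ a ^ i ⊔ V ^ n := hpow i n (hf' (by omega))
      have := Ideal.sub_mem _ (Ideal.add_mem _ h1 h3) h2
      convert this using 1
      ring
    obtain ⟨L, hL⟩ := IsPrecomplete.prec (I := V) inferInstance (f := x) fun {n k} hnk => by
      simpa [SModEq.sub_mem] using hcomp n k hnk
    refine ⟨L, fun j => ?_⟩
    have hLj : x j - L ∈ V ^ j := by simpa [SModEq.sub_mem] using hL j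
    have hsup : a ^ j ⊔ V ^ j ≤ m ^ j := sup_le (ham j) (hVm j)
    have h4 : f j - L ∈ m ^ j := by
      have := Ideal.add_mem _ (Ideal.sub_mem _ (hf' (Nat.le_add_right j j)) (hsup (hx j j)))
        (hVm j hLj)
      convert this using 1
      ring
    simpa [SModEq.sub_mem] using h4
  exact ⟨⟩

end Complete

section Eval

variable {A : Type} [CommRing A] [IsLocalRing A] [Algebra 𝒪 A]

omit [IsLocalRing 𝒪] [Finite ι] in
lemma map_varIdeal_le (φ : MvPowerSeries ι 𝒪 →ₐ[𝒪] A)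
    (h : ∀ x, φ (MvPowerSeries.X x) ∈ maximalIdeal A) :
    (varIdeal ι 𝒪).map φ ≤ maximalIdeal A := by
  rw [varIdeal, Ideal.map_span, Ideal.span_le]
  rintro _ ⟨_, ⟨x, rfl⟩, rfl⟩
  exact h x

omit [IsLocalRing 𝒪] in
/-- A hom out of a power series ring is given by its values at the variables, modulo powers. -/
lemma sub_aeval_mem (φ : MvPowerSeries ι 𝒪 →ₐ[𝒪] A)
    (h : ∀ x, φ (MvPowerSeries.X x) ∈ maximalIdeal A) (p : MvPowerSeries ι 𝒪) (n : ℕ) :
    φ p - MvPolynomial.aeval (fun x => φ (MvPowerSeries.X x)) (truncTotal n p) ∈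
      maximalIdeal A ^ n := by
  have h1 : φ (truncTotal n p : MvPolynomial ι 𝒪) =
      MvPolynomial.aeval (fun x => φ (MvPowerSeries.X x)) (truncTotal n p) := by
    rw [← algebraMap_mvPolynomial]
    have hh : φ.comp (IsScalarTower.toAlgHom 𝒪 (MvPolynomial ι 𝒪) (MvPowerSeries ι 𝒪)) =
        MvPolynomial.aeval fun x => φ (MvPowerSeries.X x) :=
      MvPolynomial.algHom_ext fun x => by simp [algebraMap_mvPolynomial]
    exact DFunLike.congr_fun hh _
  rw [← h1, ← map_sub]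
  have h2 := Ideal.mem_map_of_mem φ (sub_truncTotal_mem p n)
  rw [Ideal.map_pow] at h2
  exact Ideal.pow_right_mono (map_varIdeal_le φ h) n h2

omit [IsLocalRing 𝒪] in
lemma algHom_ext_of_hausdorff [IsHausdorff (maximalIdeal A) A]
    (φ φ' : MvPowerSeries ι 𝒪 →ₐ[𝒪] A) (h : ∀ x, φ (MvPowerSeries.X x) ∈ maximalIdeal A)
    (he : ∀ x, φ (MvPowerSeries.X x) = φ' (MvPowerSeries.X x)) : φ = φ' := by
  refine AlgHom.ext fun p => sub_eq_zero.1 ?_
  refine IsHausdorff.haus (I := maximalIdeal A) inferInstance _ fun n => ?_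
  rw [SModEq.zero, smul_eq_mul, Ideal.mul_top]
  have h1 := sub_aeval_mem φ h p n
  have h2 := sub_aeval_mem φ' (fun x => he x ▸ h x) p n
  have e : (fun x => φ' (MvPowerSeries.X x)) = fun x => φ (MvPowerSeries.X x) :=
    funext fun x => (he x).symm
  rw [e] at h2
  simpa using Ideal.sub_mem _ h1 h2

omit [IsLocalRing 𝒪] in
/-- Evaluation of power series in a complete local algebra. -/
lemma exists_eval [IsAdicComplete (maximalIdeal A) A] (a : ι → A)
    (ha : ∀ x, a x ∈ maximalIdeal A) :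
    ∃ φ : MvPowerSeries ι 𝒪 →ₐ[𝒪] A, ∀ x, φ (MvPowerSeries.X x) = a x := by
  set m := maximalIdeal A
  have hle : (MvPolynomial.idealOfVars ι 𝒪).map (MvPolynomial.aeval (R := 𝒪) a) ≤ m := by
    rw [MvPolynomial.idealOfVars, Ideal.map_span, Ideal.span_le]
    rintro _ ⟨_, ⟨x, rfl⟩, rfl⟩
    rw [MvPolynomial.aeval_X]
    exact ha x
  have hker : ∀ n, ∀ q ∈ MvPolynomial.idealOfVars ι 𝒪 ^ n,
      ((Ideal.Quotient.mkₐ 𝒪 (m ^ n)).comp (MvPolynomial.aeval a)) q = 0 := fun n q hq => by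
    rw [AlgHom.comp_apply, Ideal.Quotient.mkₐ_eq_mk, Ideal.Quotient.eq_zero_iff_mem]
    have := Ideal.mem_map_of_mem (MvPolynomial.aeval (R := 𝒪) a) hq
    rw [Ideal.map_pow] at this
    exact Ideal.pow_right_mono hle n this
  let f : ∀ n, MvPowerSeries ι 𝒪 →ₐ[𝒪] A ⧸ m ^ n := fun n =>
    (Ideal.Quotient.liftₐ _ _ (hker n)).comp ((truncTotalAlgHom ι 𝒪 n).restrictScalars 𝒪)
  have hf : ∀ n p, f n p = Ideal.Quotient.mk (m ^ n) (MvPolynomial.aeval a (truncTotal n p)) :=
    fun n p => rfl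
  have hcomm : ∀ {k n : ℕ} (hkn : k ≤ n),
      (Ideal.Quotient.factorₐ 𝒪 (Ideal.pow_le_pow_right hkn)).comp (f n) = f k := fun {k n} hkn =>
    AlgHom.ext fun p => by
      rw [AlgHom.comp_apply, hf, hf, Ideal.Quotient.factorₐ_apply_mk,
        Ideal.Quotient.mk_eq_mk_iff_sub_mem, ← map_sub]
      have := Ideal.mem_map_of_mem (MvPolynomial.aeval (R := 𝒪) a)
        (truncTotal_sub_truncTotal_mem_pow_idealOfVars hkn le_rfl p)
      rw [Ideal.map_pow] at this
      exact Ideal.pow_right_mono hle k this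
  refine ⟨IsAdicComplete.liftAlgHom m f hcomm, fun x => ?_⟩
  refine sub_eq_zero.1 (IsHausdorff.haus (I := m) inferInstance _ fun n => ?_)
  rw [SModEq.zero, smul_eq_mul, Ideal.mul_top, ← Ideal.Quotient.eq_zero_iff_mem, map_sub,
    IsAdicComplete.mk_liftAlgHom, sub_eq_zero]
  show Ideal.Quotient.liftₐ _ _ (hker n) (truncTotalAlgHom ι 𝒪 n (MvPowerSeries.X x)) = _
  rw [← MvPolynomial.coe_X, ← algebraMap_mvPolynomial, AlgHom.commutes, Ideal.Quotient.algebraMap_eq]
  show Ideal.Quotient.mk _ (MvPolynomial.aeval a (MvPolynomial.X x)) = _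
  rw [MvPolynomial.aeval_X]

end Eval

end FermatAgent.DefRing
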