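import Fermat.Agent.DefRing.Deform
import Fermat.Agent.DefRing.PowerSeriesBase

/-!
Ideals of the power series ring which carry a lift, and the minimal ones containing a given power
of the maximal ideal.
-/

set_option autoImplicit false

noncomputable section

namespace FermatAgent.DefRing

open IsLocalRing

variable {𝒪 : Type} [CommRing 𝒪] [IsLocalRing 𝒪] (F : Frame 𝒪)
variable (𝒟 : ∀ ⦃A : Type⦄ [CommRing A] [IsLocalRing A] [Algebra 𝒪 A], GaloisRepAdic A → Prop)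
variable {ι : Type} (e : ι → Γ × Fin 2 × Fin 2)

/-- The universal values of the entries at the chosen indices. -/
def coord (x : ι) : MvPowerSeries ι 𝒪 :=
  algebraMap 𝒪 (MvPowerSeries ι 𝒪) (F.bt (e x).1 (e x).2.1 (e x).2.2) + MvPowerSeries.X x

/-- Ideals whose quotient carries a lift with the universal entries. -/
def IsPoint (I : Ideal (MvPowerSeries ι 𝒪)) : Prop :=
  ∃ _ : IsLocalRing (MvPowerSeries ι 𝒪 ⧸ I), ∃ r : Γ →* M2 (MvPowerSeries ι 𝒪 ⧸ I),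
    IsLift F 𝒟 r ∧ (∃ N, maximalIdeal (MvPowerSeries ι 𝒪) ^ N ≤ I) ∧
      entries e r = fun x => Ideal.Quotient.mk I (coord F e x)

variable {F 𝒟 e}
variable [IsNoetherianRing 𝒪] [IsAdicComplete (maximalIdeal 𝒪) 𝒪] [Finite (ResidueField 𝒪)]
variable [Finite ι] (h𝒟 : GaloisRep.IsDeformationCondition 𝒪 𝒟)

omit [IsAdicComplete (maximalIdeal 𝒪) 𝒪] in
lemma isTestAlgebra_quotient {I : Ideal (MvPowerSeries ι 𝒪)}
    [IsLocalRing (MvPowerSeries ι 𝒪 ⧸ I)] {N : ℕ}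
    (hN : maximalIdeal (MvPowerSeries ι 𝒪) ^ N ≤ I) :
    GaloisRep.IsArtinianTestAlgebra 𝒪 (MvPowerSeries ι 𝒪 ⧸ I) :=
  have := isLocalHom_algebraMap (ι := ι) (𝒪 := 𝒪)
  isTestAlgebra_quotient_pow residue_comp_algebraMap_surjective I N hN

include h𝒟 in
omit [IsAdicComplete (maximalIdeal 𝒪) 𝒪] in
/-- A lift with values in the image of the power series ring gives a point. -/
lemma isPoint_of_hom (hsep : Separates F 𝒟 e) {A : Type} [CommRing A] [IsLocalRing A]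
    [Algebra 𝒪 A] (hA : GaloisRep.IsArtinianTestAlgebra 𝒪 A) {r : Γ →* M2 A}
    (h : IsLift F 𝒟 r) (ψ : MvPowerSeries ι 𝒪 →ₐ[𝒪] A)
    (hψ : entries e r = fun x => ψ (coord F e x)) : IsPoint F 𝒟 e (RingHom.ker ψ) := by
  have hloc := hA.isLocalHom
  have hXm : ∀ x, ψ (MvPowerSeries.X x) ∈ maximalIdeal A := fun x => by
    have h1 := h.norm.res (e x).1 (e x).2.1 (e x).2.2
    have h2 : entries e r x = ψ (coord F e x) := congrFun hψ x
    rw [entries] at h2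
    rw [h2, coord, map_add, AlgHom.commutes, add_sub_cancel_left] at h1
    exact h1
  obtain ⟨N, hN⟩ := exists_maximalIdeal_pow_eq_bot hA
  have hker : maximalIdeal (MvPowerSeries ι 𝒪) ^ N ≤ RingHom.ker ψ := by
    have hle : (maximalIdeal (MvPowerSeries ι 𝒪)).map ψ ≤ maximalIdeal A := by
      rw [maximalIdeal_eq, Ideal.map_sup, sup_le_iff]
      refine ⟨?_, map_varIdeal_le ψ hXm⟩
      rw [← Ideal.map_coe, Ideal.map_map, AlgHom.comp_algebraMap, Ideal.map_le_iff_le_comap]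
      exact fun o ho => Ideal.mem_comap.2 (map_nonunit (algebraMap 𝒪 A) o ho)
    intro p hp
    have h1 := Ideal.mem_map_of_mem ψ hp
    rw [Ideal.map_pow] at h1
    have h2 := Ideal.pow_right_mono hle N h1
    rwa [hN, Ideal.mem_bot] at h2
  have hne : RingHom.ker ψ ≠ ⊤ := fun hh => by
    have h1 : (1 : MvPowerSeries ι 𝒪) ∈ RingHom.ker ψ := hh ▸ Submodule.mem_top
    rw [RingHom.mem_ker, map_one] at h1
    exact one_ne_zero h1
  have := quotient_isLocalRing _ hne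
  have hP := isTestAlgebra_quotient hker
  let χ : MvPowerSeries ι 𝒪 ⧸ RingHom.ker ψ →ₐ[𝒪] A := Ideal.kerLiftAlg ψ
  have hχ : Function.Injective χ := Ideal.kerLiftAlg_injective ψ
  have hmem : ∀ σ i j, ∃ q, χ q = r σ i j := by
    intro σ i j
    have h1 : Algebra.adjoin 𝒪 (Set.range (entries e r)) ≤ ψ.range := by
      rw [Algebra.adjoin_le_iff]
      rintro _ ⟨x, rfl⟩
      exact ⟨_, (congrFun hψ x).symm⟩
    obtain ⟨p, hp⟩ := h1 (adjoin_allEntries_le h𝒟 hsep hA h (Algebra.subset_adjoin ⟨(σ, i, j), rfl⟩))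
    exact ⟨Ideal.Quotient.mk _ p, hp⟩
  choose q hq using hmem
  let r' : Γ →* M2 (MvPowerSeries ι 𝒪 ⧸ RingHom.ker ψ) :=
    { toFun := fun σ => Matrix.of (q σ)
      map_one' := by
        refine Matrix.ext fun i j => hχ ?_
        rw [Matrix.of_apply, hq, map_one]
        fin_cases i <;> fin_cases j <;> simp
      map_mul' := fun σ τ => by
        refine Matrix.ext fun i j => hχ ?_
        simp [hq, Matrix.mul_apply] }
  have hr' : mapRep (χ : _ →+* A) r' = r :=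
    MonoidHom.ext fun σ => Matrix.ext fun i j => hq σ i j
  refine ⟨this, r', IsLift.of_injective h𝒟 hP hA χ hχ (hr'.symm ▸ h), ⟨N, hker⟩,
    funext fun x => hχ ?_⟩
  exact (hq _ _ _).trans (congrFun hψ x)

include h𝒟 in
omit [IsAdicComplete (maximalIdeal 𝒪) 𝒪] in
lemma isPoint_mono (hsep : Separates F 𝒟 e) {I I' : Ideal (MvPowerSeries ι 𝒪)}
    (hI : IsPoint F 𝒟 e I) (hle : I ≤ I') (hne : I' ≠ ⊤) : IsPoint F 𝒟 e I' := by
  obtain ⟨hloc, r, hr, ⟨N, hN⟩, he⟩ := hI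
  have := quotient_isLocalRing I' hne
  let f := Ideal.Quotient.factorₐ 𝒪 hle
  have hI' := isTestAlgebra_quotient (hN.trans hle)
  have h := isPoint_of_hom h𝒟 hsep hI' (hr.map h𝒟 (isTestAlgebra_quotient hN) hI' f)
    (Ideal.Quotient.mkₐ 𝒪 I') (by
      rw [entries_mapRep, he]
      rfl)
  rwa [show RingHom.ker (Ideal.Quotient.mkₐ 𝒪 I') = I' from Ideal.mk_ker] at h

include h𝒟 in
omit [IsAdicComplete (maximalIdeal 𝒪) 𝒪] in
lemma isPoint_inf (hsep : Separates F 𝒟 e) {I J : Ideal (MvPowerSeries ι 𝒪)}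
    (hI : IsPoint F 𝒟 e I) (hJ : IsPoint F 𝒟 e J) : IsPoint F 𝒟 e (I ⊓ J) := by
  obtain ⟨hlI, rI, hrI, ⟨NI, hNI⟩, heI⟩ := hI
  obtain ⟨hlJ, rJ, hrJ, ⟨NJ, hNJ⟩, heJ⟩ := hJ
  have hneI : I ≠ ⊤ := fun hh => not_subsingleton _ (Ideal.Quotient.subsingleton_iff.2 hh)
  have hneJ : J ≠ ⊤ := fun hh => not_subsingleton _ (Ideal.Quotient.subsingleton_iff.2 hh)
  have hsup : I ⊔ J ≠ ⊤ := fun hh => (maximalIdeal.isMaximal (MvPowerSeries ι 𝒪)).ne_top
    (eq_top_iff.2 (hh ▸ sup_le (le_maximalIdeal hneI) (le_maximalIdeal hneJ)))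
  have hinf : I ⊓ J ≠ ⊤ := fun hh => hneI (eq_top_iff.2 (hh ▸ inf_le_left))
  have := quotient_isLocalRing _ hsup
  have := quotient_isLocalRing _ hinf
  have hN : maximalIdeal (MvPowerSeries ι 𝒪) ^ (max NI NJ) ≤ I ⊓ J :=
    le_inf ((Ideal.pow_le_pow_right (le_max_left _ _)).trans hNI)
      ((Ideal.pow_le_pow_right (le_max_right _ _)).trans hNJ)
  have tI := isTestAlgebra_quotient hNI
  have tJ := isTestAlgebra_quotient hNJ
  have tP := isTestAlgebra_quotient hN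
  have tC := isTestAlgebra_quotient (I := I ⊔ J) (hNI.trans le_sup_left)
  let fI := Ideal.Quotient.factorₐ 𝒪 (le_sup_left : I ≤ I ⊔ J)
  let fJ := Ideal.Quotient.factorₐ 𝒪 (le_sup_right : J ≤ I ⊔ J)
  let pI := Ideal.Quotient.factorₐ 𝒪 (inf_le_left : I ⊓ J ≤ I)
  let pJ := Ideal.Quotient.factorₐ 𝒪 (inf_le_right : I ⊓ J ≤ J)
  have heq : mapRep (fI : MvPowerSeries ι 𝒪 ⧸ I →+* MvPowerSeries ι 𝒪 ⧸ I ⊔ J) rI =
      mapRep (fJ : MvPowerSeries ι 𝒪 ⧸ J →+* MvPowerSeries ι 𝒪 ⧸ I ⊔ J) rJ := by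
    refine IsLift.ext_entries h𝒟 hsep tC (hrI.map h𝒟 tI tC fI) (hrJ.map h𝒟 tJ tC fJ) ?_
    rw [entries_mapRep, entries_mapRep, heI, heJ]
    rfl
  have hinj : ∀ x y, pI x = pI y → pJ x = pJ y → x = y := by
    intro x y
    obtain ⟨x, rfl⟩ := Ideal.Quotient.mk_surjective x
    obtain ⟨y, rfl⟩ := Ideal.Quotient.mk_surjective y
    intro h1 h2
    exact (Ideal.Quotient.mk_eq_mk_iff_sub_mem x y).2
      ⟨(Ideal.Quotient.mk_eq_mk_iff_sub_mem x y).1 h1, (Ideal.Quotient.mk_eq_mk_iff_sub_mem x y).1 h2⟩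
  have hsurj : ∀ a b, fI a = fJ b → ∃ x, pI x = a ∧ pJ x = b := by
    intro a b
    obtain ⟨u, rfl⟩ := Ideal.Quotient.mk_surjective a
    obtain ⟨v, rfl⟩ := Ideal.Quotient.mk_surjective b
    intro huv
    obtain ⟨i, hi, j, hj, hij⟩ := Submodule.mem_sup.1 ((Ideal.Quotient.mk_eq_mk_iff_sub_mem u v).1 huv)
    refine ⟨Ideal.Quotient.mk _ (u - i), ?_, ?_⟩
    · exact (Ideal.Quotient.mk_eq_mk_iff_sub_mem (u - i) u).2 (by simpa using hi)
    · refine (Ideal.Quotient.mk_eq_mk_iff_sub_mem (u - i) v).2 ?_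
      rwa [show u - i - v = j by linear_combination -hij]
  have hpair : ∀ σ i j, ∃ x, pI x = rI σ i j ∧ pJ x = rJ σ i j := fun σ i j =>
    hsurj _ _ (congrFun (congrFun (DFunLike.congr_fun heq σ) i) j)
  choose x hxI hxJ using hpair
  let r : Γ →* M2 (MvPowerSeries ι 𝒪 ⧸ I ⊓ J) :=
    { toFun := fun σ => Matrix.of (x σ)
      map_one' := by
        refine Matrix.ext fun i j => hinj _ _ ?_ ?_
        · rw [Matrix.of_apply, hxI, map_one]
          fin_cases i <;> fin_cases j <;> simp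
        · rw [Matrix.of_apply, hxJ, map_one]
          fin_cases i <;> fin_cases j <;> simp
      map_mul' := fun σ τ => by
        refine Matrix.ext fun i j => hinj _ _ ?_ ?_
        · simp [hxI, Matrix.mul_apply]
        · simp [hxJ, Matrix.mul_apply] }
  have hI : mapRep (pI : MvPowerSeries ι 𝒪 ⧸ I ⊓ J →+* MvPowerSeries ι 𝒪 ⧸ I) r = rI := MonoidHom.ext fun σ => Matrix.ext fun i j => hxI σ i j
  have hJ : mapRep (pJ : MvPowerSeries ι 𝒪 ⧸ I ⊓ J →+* MvPowerSeries ι 𝒪 ⧸ J) r = rJ := MonoidHom.ext fun σ => Matrix.ext fun i j => hxJ σ i j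
  refine ⟨this, r, ?_, ⟨_, hN⟩, funext fun k => hinj _ _ ?_ ?_⟩
  · exact IsLift.of_fibreProduct h𝒟 tI tJ tC tP fI fJ pI pJ
      (AlgHom.ext fun p => by obtain ⟨p, rfl⟩ := Ideal.Quotient.mk_surjective p; rfl)
      (fun a b hab => hinj a b (congrArg Prod.fst hab) (congrArg Prod.snd hab))
      hsurj (hI.symm ▸ hrI) (hJ.symm ▸ hrJ)
  · exact (hxI _ _ _).trans (congrFun heI k)
  · exact (hxJ _ _ _).trans (congrFun heJ k)

include h𝒟 in
omit [IsAdicComplete (maximalIdeal 𝒪) 𝒪] in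
/-- The minimal points containing the powers of the maximal ideal. -/
lemma exists_minimal_points (hsep : Separates F 𝒟 e) (r₀ : Γ →* M2 (ResidueField 𝒪))
    (hk : GaloisRep.IsArtinianTestAlgebra 𝒪 (ResidueField 𝒪)) (hr₀ : IsLift F 𝒟 r₀) :
    ∃ I : ℕ → Ideal (MvPowerSeries ι 𝒪), (∀ n, IsPoint F 𝒟 e (I n)) ∧
      (∀ n, maximalIdeal (MvPowerSeries ι 𝒪) ^ (n + 1) ≤ I n) ∧
      (∀ n K, IsPoint F 𝒟 e K → maximalIdeal (MvPowerSeries ι 𝒪) ^ (n + 1) ≤ K → I n ≤ K) := by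
  have := hk.isArtinian
  obtain ⟨ψ₀, hψ₀⟩ := exists_eval (ι := ι) (𝒪 := 𝒪) (A := ResidueField 𝒪) (fun _ => 0)
    (fun _ => zero_mem _)
  have hbot : maximalIdeal (ResidueField 𝒪) = ⊥ :=
    (Ideal.eq_bot_or_top _).resolve_right (maximalIdeal.isMaximal _).ne_top
  have hM : IsPoint F 𝒟 e (maximalIdeal (MvPowerSeries ι 𝒪)) := by
    have h1 : IsPoint F 𝒟 e (RingHom.ker ψ₀) := by
      refine isPoint_of_hom h𝒟 hsep hk hr₀ ψ₀ (funext fun x => ?_)
      rw [coord, map_add, AlgHom.commutes, hψ₀, add_zero]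
      have := hr₀.norm.res (e x).1 (e x).2.1 (e x).2.2
      rw [hbot, Ideal.mem_bot, sub_eq_zero] at this
      exact this
    have h2 : RingHom.ker ψ₀ ≤ maximalIdeal (MvPowerSeries ι 𝒪) := le_maximalIdeal fun hh => by
      obtain ⟨hl, -⟩ := h1
      exact not_subsingleton _ (Ideal.Quotient.subsingleton_iff.2 hh)
    exact isPoint_mono h𝒟 hsep h1 h2 (maximalIdeal.isMaximal _).ne_top
  have key : ∀ n, ∃ I, IsPoint F 𝒟 e I ∧ maximalIdeal (MvPowerSeries ι 𝒪) ^ (n + 1) ≤ I ∧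
      ∀ K, IsPoint F 𝒟 e K → maximalIdeal (MvPowerSeries ι 𝒪) ^ (n + 1) ≤ K → I ≤ K := by
    intro n
    set Mn := maximalIdeal (MvPowerSeries ι 𝒪) ^ (n + 1)
    have := isLocalHom_algebraMap (ι := ι) (𝒪 := 𝒪)
    have := finite_residueField_of_surjective (A := MvPowerSeries ι 𝒪)
      residue_comp_algebraMap_surjective
    have : Finite (MvPowerSeries ι 𝒪 ⧸ Mn) := IsLocalRing.finite_quotient_iff.2 ⟨n + 1, le_rfl⟩
    let mk := Ideal.Quotient.mk Mn
    have hcm : ∀ K : Ideal (MvPowerSeries ι 𝒪), Mn ≤ K → (K.map mk).comap mk = K := fun K hK => by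
      rw [Ideal.comap_map_of_surjective' _ Ideal.Quotient.mk_surjective, Ideal.mk_ker, sup_eq_left]
      exact hK
    obtain ⟨K₀, hK₀, hmin⟩ := wellFounded_lt.has_min
      {K : Ideal (MvPowerSeries ι 𝒪 ⧸ Mn) | IsPoint F 𝒟 e (K.comap mk)}
      ⟨(maximalIdeal (MvPowerSeries ι 𝒪)).map mk, by
        show IsPoint F 𝒟 e _
        rw [hcm _ (Ideal.pow_le_self (Nat.succ_ne_zero n))]
        exact hM⟩
    have hle : Mn ≤ K₀.comap mk := fun p hp => by
      rw [Ideal.mem_comap, show mk p = 0 from Ideal.Quotient.eq_zero_iff_mem.2 hp]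
      exact zero_mem _
    refine ⟨K₀.comap mk, hK₀, hle, fun K hK hKle => ?_⟩
    have hmem : IsPoint F 𝒟 e (((K₀.comap mk) ⊓ K).map mk |>.comap mk) := by
      rw [hcm _ (le_inf hle hKle)]
      exact isPoint_inf h𝒟 hsep hK₀ hK
    have hle' : ((K₀.comap mk) ⊓ K).map mk ≤ K₀ := Ideal.map_le_iff_le_comap.2 inf_le_left
    have heq : ((K₀.comap mk) ⊓ K).map mk = K₀ :=
      hle'.eq_or_lt.resolve_right (hmin _ hmem)
    rw [← hcm K hKle, ← heq]
    exact Ideal.comap_mono (Ideal.map_mono inf_le_right)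
  choose I h1 h2 h3 using key
  exact ⟨I, h1, h2, h3⟩

end FermatAgent.DefRing
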