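import Fermat.Agent.DefRing.Limit
import Fermat.Agent.DefRing.FrameExists
import Fermat.Prelude.Def_GaloisRep_DeformationRingData

/-!
Existence of the universal deformation ring.
-/

set_option autoImplicit false

noncomputable section

namespace FermatAgent.DefRing

open IsLocalRing

variable {𝒪 : Type} [CommRing 𝒪] [IsLocalRing 𝒪]

/-- A representation with the given residual representation has a normalised matrix model. -/
lemma exists_normal_model (F : Frame 𝒪) (ρbar : ResidualGaloisRep (ResidueField 𝒪))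
    (b : Module.Basis (Fin 2) (ResidueField 𝒪) ρbar.V)
    (hbt : ∀ σ, (F.bt σ).map (residue 𝒪) = rmat b ρbar.ρ σ)
    {A : Type} [CommRing A] [IsLocalRing A] [Algebra 𝒪 A] [IsLocalHom (algebraMap 𝒪 A)]
    [HenselianRing A (maximalIdeal A)] (ρA : GaloisRepAdic A)
    (hres : ρA.residual.IsEquiv
      (ρbar.baseChangeAlong (ResidueField.map (algebraMap 𝒪 A)))) :
    ∃ r : Γ →* M2 A, ∃ h : IsNorm F r, ρA.IsEquiv (toAdic r h.cont) := by
  obtain ⟨b₂, hb₂⟩ := rmat_baseChangeAlong (ResidueField.map (algebraMap 𝒪 A)) ρbar b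
  let b₁ := stdBasis ρA
  let m₀ := matrixOf b₁ ρA.ρ
  obtain ⟨Qb, hQb, hconj⟩ := exists_conj_rmat hres
    (Algebra.TensorProduct.basis (ResidueField A) b₁) b₂
  have hm₀ : rmat (Algebra.TensorProduct.basis (ResidueField A) b₁) ρA.residual.ρ =
      mapRep (residue A) m₀ := matrixOf_residual ρA b₁
  let Q : M2 A := Qb.map (Function.surjInv residue_surjective)
  have hQmap : Q.map (residue A) = Qb := by
    ext i j; exact Function.surjInv_eq residue_surjective _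
  have hQ : IsUnit Q.det := by
    refine IsUnit.of_map (residue A) _ ?_
    rw [RingHom.map_det]
    show IsUnit (Q.map (residue A)).det
    rwa [hQmap]
  have h1 : Q⁻¹ * Q = 1 := Matrix.nonsing_inv_mul _ hQ
  have h2 : Q * Q⁻¹ = 1 := Matrix.mul_nonsing_inv _ hQ
  let r₁ := conjRep Q⁻¹ Q h1 h2 m₀
  have hc₁ : IsCont r₁ :=
    isCont_conjRep (isCont_matrixOf ρA b₁) Q⁻¹ Q h2 r₁ fun σ => rfl
  have hr₁ : IsResidual F r₁ := by
    rw [isResidual_iff]
    intro σ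
    have e1 : ((F.bt σ).map (algebraMap 𝒪 A)).map (residue A) =
        rmat b₂ (ρbar.baseChangeAlong (ResidueField.map (algebraMap 𝒪 A))).ρ σ := by
      rw [hb₂, mapRep_apply, ← hbt]
      ext i j
      simp [ResidueField.map_residue]
    have e2 : Qb * (Q⁻¹).map (residue A) = 1 := by
      rw [← hQmap, ← Matrix.map_mul, h2, Matrix.map_one _ (map_zero _) (map_one _)]
    have e3 := hconj σ
    have e4 : Qb * (m₀ σ).map (residue A) =
        ((F.bt σ).map (algebraMap 𝒪 A)).map (residue A) * Qb := by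
      rw [e1]
      exact (congrArg (Qb * ·) (DFunLike.congr_fun hm₀ σ)).symm.trans e3
    show (Q * m₀ σ * Q⁻¹).map (residue A) = _
    rw [Matrix.map_mul, Matrix.map_mul, hQmap, e4, mul_assoc, e2, mul_one]
  obtain ⟨r, hr, ⟨he⟩⟩ := exists_isNorm F hc₁ hr₁
  refine ⟨r, hr, ?_⟩
  obtain ⟨e₀⟩ := isEquiv_toAdic_matrixOf ρA b₁ m₀ (isCont_matrixOf ρA b₁) rfl
  obtain ⟨e₁⟩ := isEquiv_toAdic_of_conj (isCont_matrixOf ρA b₁) hc₁ Q hQ fun σ => by
    show Q * m₀ σ = Q * m₀ σ * Q⁻¹ * Q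
    rw [mul_assoc _ Q⁻¹, h1, mul_one]
  exact ⟨(e₀.trans e₁).trans he⟩

/-- The residual representation of a normalised lift. -/
lemma residual_isEquiv_of_isResidual (F : Frame 𝒪) (ρbar : ResidualGaloisRep (ResidueField 𝒪))
    (b : Module.Basis (Fin 2) (ResidueField 𝒪) ρbar.V)
    (hbt : ∀ σ, (F.bt σ).map (residue 𝒪) = rmat b ρbar.ρ σ)
    {A : Type} [CommRing A] [IsLocalRing A] [Algebra 𝒪 A] [IsLocalHom (algebraMap 𝒪 A)]
    {r : Γ →* M2 A} (hc : IsCont r) (hr : IsResidual F r) :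
    (toAdic r hc).residual.IsEquiv
      (ρbar.baseChangeAlong (ResidueField.map (algebraMap 𝒪 A))) := by
  obtain ⟨b₂, hb₂⟩ := rmat_baseChangeAlong (ResidueField.map (algebraMap 𝒪 A)) ρbar b
  obtain ⟨b₁, hb₁⟩ := residual_toAdic_matrices r hc
  refine isEquiv_of_rmat_eq _ _ b₁ b₂ 1 (by simp) fun σ => ?_
  have h1 : rmat b₁ (toAdic r hc).residual.ρ = mapRep (residue A) r := hb₁
  rw [one_mul, mul_one, h1, hb₂, mapRep_apply, mapRep_apply, (isResidual_iff F r).1 hr σ, ← hbt]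
  ext i j
  simp [ResidueField.map_residue]

/-- Reductions of a lift of a complete ring to Artinian test algebras are lifts. -/
lemma isLift_map_of_complete {F : Frame 𝒪}
    {𝒟 : ∀ ⦃A : Type⦄ [CommRing A] [IsLocalRing A] [Algebra 𝒪 A], GaloisRepAdic A → Prop}
    (h𝒟 : GaloisRep.IsDeformationCondition 𝒪 𝒟) [Finite (ResidueField 𝒪)]
    {R B : Type} [CommRing R] [IsLocalRing R] [Algebra 𝒪 R] [IsNoetherianRing R]
    [IsAdicComplete (maximalIdeal R) R] [CommRing B] [IsLocalRing B] [Algebra 𝒪 B]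
    (hlh : IsLocalHom (algebraMap 𝒪 R))
    (hres : Function.Surjective (residue R ∘ algebraMap 𝒪 R))
    {r : Γ →* M2 R} (hn : IsNorm F r) (hD : 𝒟 (toAdic r hn.cont))
    (hB : GaloisRep.IsArtinianTestAlgebra 𝒪 B) (χ : R →ₐ[𝒪] B)
    (hχ : IsLocalHom (χ : R →+* B)) : IsLift F 𝒟 (mapRep (χ : R →+* B) r) := by
  obtain ⟨N, hN⟩ := exists_maximalIdeal_pow_eq_bot hB
  have hneR : maximalIdeal R ^ (N + 1) ≠ ⊤ := fun hh => (maximalIdeal.isMaximal R).ne_top
    (eq_top_iff.2 (hh ▸ Ideal.pow_le_self (Nat.succ_ne_zero N)))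
  have := quotient_isLocalRing _ hneR
  have hQ := isTestAlgebra_quotient_pow (𝒪 := 𝒪) hres (maximalIdeal R ^ (N + 1)) (N + 1) le_rfl
  let q := Ideal.Quotient.mkₐ 𝒪 (maximalIdeal R ^ (N + 1))
  have hq : IsLocalHom (q : R →+* R ⧸ maximalIdeal R ^ (N + 1)) :=
    IsLocalHom.of_surjective _ Ideal.Quotient.mk_surjective
  have hl : IsLift F 𝒟 (mapRep (q : R →+* R ⧸ maximalIdeal R ^ (N + 1)) r) := by
    refine ⟨hn.map F q hq, h𝒟.of_isEquiv hQ ?_
      ((h𝒟.iff_forall_surjective hlh hres _).1 hD hQ q hq Ideal.Quotient.mk_surjective)⟩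
    exact isEquiv_baseChangeAlong_toAdic _ hq r hn.cont _ _ rfl
  have hker : ∀ z ∈ maximalIdeal R ^ (N + 1), χ z = 0 := fun z hz => by
    have hle : (maximalIdeal R).map (χ : R →+* B) ≤ maximalIdeal B :=
      Ideal.map_le_iff_le_comap.2 fun y hy => Ideal.mem_comap.2 (haveI := hχ; map_nonunit _ y hy)
    have h1 := Ideal.mem_map_of_mem (χ : R →+* B) (Ideal.pow_le_pow_right (Nat.le_succ N) hz)
    rw [Ideal.map_pow] at h1
    have h2 := Ideal.pow_right_mono hle N h1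
    rwa [hN, Ideal.mem_bot] at h2
  exact hl.map h𝒟 hQ hB (Ideal.Quotient.liftₐ _ χ hker)

end FermatAgent.DefRing

namespace FermatAgent.DefRing

open IsLocalRing

variable {𝒪 : Type} [CommRing 𝒪] [IsDomain 𝒪] [IsDiscreteValuationRing 𝒪]
  [IsAdicComplete (maximalIdeal 𝒪) 𝒪] [Finite (ResidueField 𝒪)]
variable {𝒟 : ∀ ⦃A : Type⦄ [CommRing A] [IsLocalRing A] [Algebra 𝒪 A], GaloisRepAdic A → Prop}

omit [IsAdicComplete (maximalIdeal 𝒪) 𝒪] [Finite (ResidueField 𝒪)] in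
lemma isTestAlgebra_residueField_self :
    GaloisRep.IsArtinianTestAlgebra 𝒪 (ResidueField 𝒪) := by
  refine ⟨⟨fun o ho => IsUnit.of_map (residue 𝒪) o ho⟩, fun y => ?_, inferInstance⟩
  obtain ⟨x, rfl⟩ := residue_surjective y
  obtain ⟨o, rfl⟩ := residue_surjective x
  exact ⟨o, rfl⟩

omit [IsAdicComplete (maximalIdeal 𝒪) 𝒪] [Finite (ResidueField 𝒪)] in
lemma isLift_residual (h𝒟 : GaloisRep.IsDeformationCondition 𝒪 𝒟) (F : Frame 𝒪)
    (ρbar : ResidualGaloisRep (ResidueField 𝒪))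
    (b : Module.Basis (Fin 2) (ResidueField 𝒪) ρbar.V)
    (hbt : ∀ σ, (F.bt σ).map (residue 𝒪) = rmat b ρbar.ρ σ)
    (hbar : 𝒟 (GaloisRepAdic.ofResidualGaloisRep ρbar)) :
    IsLift F 𝒟 (rmat b ρbar.ρ) := by
  have hk := isTestAlgebra_residueField_self (𝒪 := 𝒪)
  have hcomb : ∀ c : Fin F.num → 𝒪, comb F c (rmat b ρbar.ρ) =
      (∑ s, c s • F.bt (F.pts s)).map (residue 𝒪) := by
    intro c
    ext i j
    simp only [comb, Matrix.sum_apply, Matrix.map_apply, Matrix.smul_apply, map_sum, smul_eq_mul,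
      map_mul, ← hbt]
    rfl
  have hc : IsCont (rmat b ρbar.ρ) :=
    isCont_matrixOf (GaloisRepAdic.ofResidualGaloisRep ρbar) b
  refine ⟨⟨hc, fun σ i j => ?_, ?_, ?_, ?_⟩, ?_⟩
  · rw [← hbt, Matrix.map_apply]
    show residue 𝒪 _ - residue 𝒪 _ ∈ _
    rw [sub_self]
    exact zero_mem _
  · rw [hcomb, F.ha]; rfl
  · rw [hcomb, F.ha]; rfl
  · rw [hcomb, F.hb]; rfl
  · exact h𝒟.of_isEquiv hk
      (isEquiv_toAdic_matrixOf (GaloisRepAdic.ofResidualGaloisRep ρbar) b _ hc rfl) hbar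

omit [IsAdicComplete (maximalIdeal 𝒪) 𝒪] in
lemma exists_separating (F : Frame 𝒪)
    (ρbar : ResidualGaloisRep (ResidueField 𝒪))
    (b : Module.Basis (Fin 2) (ResidueField 𝒪) ρbar.V)
    (hbt : ∀ σ, (F.bt σ).map (residue 𝒪) = rmat b ρbar.ρ σ)
    (hfin : GaloisRep.TangentFinite 𝒪 ρbar 𝒟) :
    ∃ (ι : Type) (_ : Finite ι) (e : ι → Γ × Fin 2 × Fin 2), Separates F 𝒟 e := by
  have hloc : IsLocalHom (algebraMap 𝒪 (DN 𝒪)) := (isTestAlgebra_DN (𝒪 := 𝒪)).isLocalHom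
  let L := {r : Γ →* M2 (DN 𝒪) // IsLift F 𝒟 r}
  have : Finite L := by
    unfold GaloisRep.TangentFinite at hfin
    have hinst : ((algebraMap (ResidueField 𝒪) (DualNumber (ResidueField 𝒪))).comp
        (algebraMap 𝒪 (ResidueField 𝒪))).toAlgebra =
          TrivSqZeroExt.algebra' 𝒪 (ResidueField 𝒪) (ResidueField 𝒪) :=
      Algebra.algebra_ext _ _ fun o => by
        show algebraMap (ResidueField 𝒪) (DualNumber (ResidueField 𝒪))
          (algebraMap 𝒪 (ResidueField 𝒪) o) = _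
        simp [TrivSqZeroExt.algebraMap_eq_inl']
    have hψ : ResidueField.map (algebraMap 𝒪 (DN 𝒪)) =
        (residue (DN 𝒪)).comp (algebraMap (ResidueField 𝒪) (DN 𝒪)) := by
      refine RingHom.ext fun o => ?_
      obtain ⟨o, rfl⟩ := residue_surjective o
      rw [ResidueField.map_residue, RingHom.comp_apply]
      congr 1
    refine @Finite.of_injective L _ hfin (fun r => Quotient.mk _ ⟨toAdic r.1 r.2.norm.cont, ?_, ?_⟩) ?_
    · exact Eq.mpr (congrArg (fun inst => @𝒟 (DN 𝒪) _ _ inst (toAdic r.1 r.2.norm.cont)) hinst) r.2.mem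
    · have h := residual_isEquiv_of_isResidual F ρbar b hbt r.2.norm.cont r.2.norm.res
      rw [hψ] at h
      exact h
    · intro r r' hrr
      exact Subtype.ext (r.2.norm.eq_of_isEquiv F r'.2.norm (Quotient.exact hrr))
  have hdiff : ∀ p : {p : L × L // p.1 ≠ p.2}, ∃ x : Γ × Fin 2 × Fin 2,
      p.1.1.1 x.1 x.2.1 x.2.2 ≠ p.1.2.1 x.1 x.2.1 x.2.2 := by
    intro p
    by_contra hcon
    push Not at hcon
    exact p.2 (Subtype.ext (MonoidHom.ext fun σ => Matrix.ext fun i j => hcon (σ, i, j)))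
  choose e he using hdiff
  refine ⟨{p : L × L // p.1 ≠ p.2}, inferInstance, e, fun r r' hr hr' heq => ?_⟩
  by_contra hne
  exact he ⟨(⟨r, hr⟩, ⟨r', hr'⟩), fun hh => hne (congrArg Subtype.val hh)⟩ (congrFun heq _)

/-- Existence of the universal deformation ring. -/
theorem nonempty_deformationRingData_of (h𝒟 : GaloisRep.IsDeformationCondition 𝒪 𝒟)
    (ρbar : ResidualGaloisRep (ResidueField 𝒪)) (habs : ρbar.IsAbsolutelyIrreducible)
    (hbar : 𝒟 (GaloisRepAdic.ofResidualGaloisRep ρbar))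
    (hfin : GaloisRep.TangentFinite 𝒪 ρbar 𝒟) :
    Nonempty (GaloisRep.DeformationRingData 𝒪 ρbar 𝒟) := by
  let b : Module.Basis (Fin 2) (ResidueField 𝒪) ρbar.V :=
    Module.finBasisOfFinrankEq _ _ ρbar.finrank_eq
  obtain ⟨F, hbt⟩ := exists_frame ρbar habs b
  obtain ⟨ι, _, e, hsep⟩ := exists_separating F ρbar b hbt hfin
  obtain ⟨J, hlocJ, r, hr, hre, hJmin⟩ := exists_universal_lift h𝒟 hsep _
    (isTestAlgebra_residueField_self) (isLift_residual h𝒟 F ρbar b hbt hbar)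
  set P := MvPowerSeries ι 𝒪
  have := isAdicComplete_mvPowerSeries (ι := ι) (𝒪 := 𝒪)
  have hmkloc : IsLocalHom (Ideal.Quotient.mk J) :=
    IsLocalHom.of_surjective _ Ideal.Quotient.mk_surjective
  have hcompR : IsAdicComplete (maximalIdeal (P ⧸ J)) (P ⧸ J) := by
    have : IsLocalHom (algebraMap P (P ⧸ J)) := hmkloc
    exact IsLocalRing.isAdicComplete_of_module_finite (𝒪 := P)
  have hlh : IsLocalHom (algebraMap 𝒪 (P ⧸ J)) := ⟨fun o ho =>
    (isLocalHom_algebraMap (ι := ι) (𝒪 := 𝒪)).map_nonunit o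
      (IsUnit.of_map (Ideal.Quotient.mk J) _ ho)⟩
  have hres : Function.Surjective (residue (P ⧸ J) ∘ algebraMap 𝒪 (P ⧸ J)) := by
    intro z
    obtain ⟨z, rfl⟩ := residue_surjective z
    obtain ⟨p, rfl⟩ := Ideal.Quotient.mk_surjective z
    obtain ⟨o, ho⟩ := testAlg_exists_lift (residue_comp_algebraMap_surjective (ι := ι) (𝒪 := 𝒪)) p
    refine ⟨o, ?_⟩
    show residue _ (Ideal.Quotient.mk J (algebraMap 𝒪 P o)) = _
    rw [eq_comm, ← sub_eq_zero, ← map_sub, residue_eq_zero_iff, ← map_sub]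
    exact map_nonunit _ _ ho
  refine ⟨{
    R := P ⧸ J
    residue_surjective := hres
    absIrr := habs
    ρ := toAdic r hr.norm.cont
    isOfType := hr.mem
    residual_isEquiv := residual_isEquiv_of_isResidual F ρbar b hbt hr.norm.cont hr.norm.res
    universal := ?_ }⟩
  intro A _ _ _ _ _ hlA hresA ρA hDA hresρ
  obtain ⟨rA, hnA, ⟨eA⟩⟩ := exists_normal_model F ρbar b hbt ρA hresρ
  let a : ι → A := fun x =>
    rA (e x).1 (e x).2.1 (e x).2.2 - algebraMap 𝒪 A (F.bt (e x).1 (e x).2.1 (e x).2.2)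
  obtain ⟨ψ, hψ⟩ := exists_eval (𝒪 := 𝒪) a fun x => hnA.res _ _ _
  have hψc : ∀ x, ψ (coord F e x) = rA (e x).1 (e x).2.1 (e x).2.2 := fun x => by
    rw [coord, map_add, AlgHom.commutes, hψ]
    exact add_sub_cancel _ _
  have hne : ∀ n, maximalIdeal A ^ (n + 1) ≠ ⊤ := fun n hh => (maximalIdeal.isMaximal A).ne_top
    (eq_top_iff.2 (hh ▸ Ideal.pow_le_self (Nat.succ_ne_zero n)))
  have hlocn : ∀ n, IsLocalRing (A ⧸ maximalIdeal A ^ (n + 1)) := fun n =>
    quotient_isLocalRing _ (hne n)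
  have hAn : ∀ n, haveI := hlocn n
      GaloisRep.IsArtinianTestAlgebra 𝒪 (A ⧸ maximalIdeal A ^ (n + 1)) := fun n =>
    have := hlocn n
    isTestAlgebra_quotient_pow hresA _ (n + 1) le_rfl
  have hDA' : 𝒟 (toAdic rA hnA.cont) := by
    refine (h𝒟.iff_forall_surjective hlA hresA _).2 fun B _ _ _ hB q hq hqs => ?_
    exact h𝒟.of_isEquiv hB ⟨eA.baseChangeAlong _ hq⟩
      ((h𝒟.iff_forall_surjective hlA hresA ρA).1 hDA hB q hq hqs)
  have hlift : ∀ n, haveI := hlocn n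
      IsLift F 𝒟 (mapRep (Ideal.Quotient.mkₐ 𝒪 (maximalIdeal A ^ (n + 1)) :
        A →+* A ⧸ maximalIdeal A ^ (n + 1)) rA) := fun n => by
    have := hlocn n
    have hq : IsLocalHom (Ideal.Quotient.mkₐ 𝒪 (maximalIdeal A ^ (n + 1)) :
        A →+* A ⧸ maximalIdeal A ^ (n + 1)) := IsLocalHom.of_surjective _ Ideal.Quotient.mk_surjective
    refine isLift_map_of_complete h𝒟 hlA hresA hnA hDA' (hAn n) _ hq
  have hJker : ∀ n, J ≤ RingHom.ker ((Ideal.Quotient.mkₐ 𝒪 (maximalIdeal A ^ (n + 1))).comp ψ) :=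
    fun n => hJmin _ (by
      have := hlocn n
      refine isPoint_of_hom h𝒟 hsep (hAn n) (hlift n) _ (funext fun x => ?_)
      show Ideal.Quotient.mkₐ 𝒪 _ (rA (e x).1 (e x).2.1 (e x).2.2) = _
      rw [← hψc]
      rfl)
  have hsep' : ∀ z : A, (∀ n, z ∈ maximalIdeal A ^ (n + 1)) → z = 0 := fun z hz =>
    IsHausdorff.haus (I := maximalIdeal A) inferInstance z fun n => by
      rw [SModEq.zero, smul_eq_mul, Ideal.mul_top]
      exact Ideal.pow_le_pow_right (Nat.le_succ n) (hz n)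
  have hψJ : ∀ p ∈ J, ψ p = 0 := fun p hp => hsep' _ fun n =>
    Ideal.Quotient.eq_zero_iff_mem.1 (hJker n hp)
  let φ : P ⧸ J →ₐ[𝒪] A := Ideal.Quotient.liftₐ J ψ hψJ
  have hφ : IsLocalHom (φ : P ⧸ J →+* A) := by
    refine ⟨fun z hz => ?_⟩
    obtain ⟨p, rfl⟩ := Ideal.Quotient.mk_surjective z
    by_contra hu
    have hp : p ∈ maximalIdeal P := fun hpu => hu (hpu.map _)
    have h1 : ψ p ∈ maximalIdeal A := by
      have hle : (maximalIdeal P).map ψ ≤ maximalIdeal A := ?_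
      · exact hle (Ideal.mem_map_of_mem ψ hp)
      rw [maximalIdeal_eq, Ideal.map_sup, sup_le_iff]
      refine ⟨?_, map_varIdeal_le ψ fun x => (hψ x).symm ▸ hnA.res _ _ _⟩
      rw [← Ideal.map_coe, Ideal.map_map, AlgHom.comp_algebraMap, Ideal.map_le_iff_le_comap]
      exact fun o ho => Ideal.mem_comap.2 (map_nonunit (algebraMap 𝒪 A) o ho)
    exact h1 hz
  have hφr : mapRep (φ : P ⧸ J →+* A) r = rA := by
    refine MonoidHom.ext fun σ => Matrix.ext fun i j => sub_eq_zero.1 (hsep' _ fun n => ?_)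
    have := hlocn n
    rw [← Ideal.Quotient.eq_zero_iff_mem, map_sub, sub_eq_zero]
    let q := Ideal.Quotient.mkₐ 𝒪 (maximalIdeal A ^ (n + 1))
    have hqloc : IsLocalHom (q : A →+* A ⧸ maximalIdeal A ^ (n + 1)) :=
      IsLocalHom.of_surjective _ Ideal.Quotient.mk_surjective
    have hχloc : IsLocalHom ((q.comp φ : P ⧸ J →ₐ[𝒪] _) : P ⧸ J →+* A ⧸ maximalIdeal A ^ (n + 1)) :=
      ⟨fun z hz => hφ.map_nonunit z (hqloc.map_nonunit _ hz)⟩
    have hl := isLift_map_of_complete h𝒟 hlh hres hr.norm hr.mem (hAn n) (q.comp φ) hχloc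
    have heq := IsLift.ext_entries h𝒟 hsep (hAn n) hl (hlift n) (funext fun x => by
      show q (φ (r (e x).1 (e x).2.1 (e x).2.2)) = _
      rw [hre]
      show q (ψ (coord F e x)) = _
      rw [hψc]
      rfl)
    exact congrFun (congrFun (DFunLike.congr_fun heq σ) i) j
  refine ⟨φ, ⟨hφ, ?_⟩, ?_⟩
  · obtain ⟨e1⟩ := isEquiv_baseChangeAlong_toAdic _ hφ r hr.norm.cont rA hnA.cont hφr.symm
    exact ⟨e1.trans eA.symm⟩
  · rintro φ' ⟨hφ', ⟨e'⟩⟩
    obtain ⟨e1⟩ := isEquiv_baseChangeAlong_toAdic (φ' : P ⧸ J →+* A) hφ' r hr.norm.cont _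
      (hr.norm.map F φ' hφ').cont rfl
    have heq : mapRep (φ' : P ⧸ J →+* A) r = rA :=
      (hr.norm.map F φ' hφ').eq_of_isEquiv F hnA ⟨(e1.symm.trans e').trans eA⟩
    have hXe : ∀ x, ψ (MvPowerSeries.X x) = φ' (Ideal.Quotient.mk J (MvPowerSeries.X x)) := fun x => by
      have h1 : φ' (Ideal.Quotient.mk J (coord F e x)) = rA (e x).1 (e x).2.1 (e x).2.2 := by
        rw [← hre x, ← heq]
        rfl
      rw [coord, map_add, map_add, Ideal.Quotient.mk_algebraMap, AlgHom.commutes] at h1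
      rw [hψ]
      show rA _ _ _ - _ = _
      rw [← h1]
      exact add_sub_cancel_left _ _
    have hcomp : φ'.comp (Ideal.Quotient.mkₐ 𝒪 J) = ψ :=
      (algHom_ext_of_hausdorff ψ _ (fun x => (hψ x).symm ▸ hnA.res _ _ _) hXe).symm
    exact Ideal.Quotient.algHom_ext 𝒪 (hcomp.trans (by ext p; rfl))

end FermatAgent.DefRing
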